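import Fermat.Agent.TWInst.Prime
import Fermat.Agent.S43Glue.Main
import Fermat.Agent.S43Glue.Ring

/-!
# `TWCore` from the Selmer bound
-/

set_option autoImplicit false
set_option maxHeartbeats 400000

noncomputable section

namespace Fermat.Agent.TWInst

open IsLocalRing Matrix Fermat.Agent.DefRing Fermat.Agent.GalRep Fermat.Agent.TWPatch
  Fermat.Agent.TWLoc Fermat.Agent.TWGal CuspForm Fermat.Agent.AnJac Fermat.Agent.HeckeQ
  CongruenceSubgroup ModularFormClass Fermat.Agent.S43Glue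
open Fermat.Agent.TWCoh hiding GQ

local notation "Qbar" => AlgebraicClosure ℚ

section Comm

variable {F : Type} [Field F]

theorem det_zero_of_sq {N : Matrix (Fin 2) (Fin 2) F} (h : N * N = 0) : N.det = 0 := by
  have h1 := congrArg Matrix.det h
  rw [Matrix.det_mul, Matrix.det_zero] at h1
  exact mul_self_eq_zero.mp h1

theorem trace_sq {X : Matrix (Fin 2) (Fin 2) F} (h : X.det = 0) :
    (X * X).trace = X.trace ^ 2 := by
  rw [Matrix.det_fin_two] at h
  rw [Matrix.trace_fin_two, Matrix.trace_fin_two, Matrix.mul_apply, Matrix.mul_apply,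
    Fin.sum_univ_two, Fin.sum_univ_two]
  linear_combination (-2 : F) * h

/-- the trace of a commutator of transvections -/
theorem comm_trace {N N' : Matrix (Fin 2) (Fin 2) F} (h : N * N = 0) (h' : N' * N' = 0) :
    ((1 + N) * (1 + N') * (1 - N) * (1 - N')).trace = 2 + (N * N').trace ^ 2 := by
  have e : (1 + N) * (1 + N') * (1 - N) * (1 - N') =
      1 + N * N' - N' * N + N' * (N * N') - N * (N' * N) + (N * N') * (N * N') - N * N +
        (N * N) * N' - N' * N' - N * (N' * N') := by noncomm_ring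
  rw [e, h, h', mul_zero, zero_mul, sub_zero, add_zero, sub_zero, sub_zero, Matrix.trace_add,
    Matrix.trace_sub, Matrix.trace_add, Matrix.trace_sub, Matrix.trace_add,
    Matrix.trace_mul_comm N' (N * N'), mul_assoc N N' N', h', mul_zero,
    Matrix.trace_mul_comm N (N' * N), mul_assoc N' N N, h, mul_zero, Matrix.trace_mul_comm N' N,
    trace_sq (by rw [Matrix.det_mul, det_zero_of_sq h, zero_mul]), Matrix.trace_one,
    Matrix.trace_zero]
  simp

end Comm

variable {p : ℕ} [hpf : Fact p.Prime]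

/-- commutators with trace different from two -/
theorem exists_comm {ρ : GQ →* Matrix (Fin 2) (Fin 2) (ZMod p)} (hρ : FreyLike p ρ) :
    ∃ g h : GQ, (ρ (g * h * g⁻¹ * h⁻¹)).trace ≠ 2 := by
  obtain ⟨σ₀, h0, h1⟩ := hρ.exists_transvection
  obtain ⟨τ, v, v', c, c', hc, hc', hli, e1, e2, e3, e4⟩ := exists_two_lines ρ hρ.irr h0 h1
  set N := ρ σ₀ - 1 with hN
  set N' := ρ (τ * σ₀ * τ⁻¹) - 1 with hN'
  have hτ : ρ τ * ρ τ⁻¹ = 1 := by rw [← map_mul, mul_inv_cancel, map_one]
  have hτ' : ρ τ⁻¹ * ρ τ = 1 := by rw [← map_mul, inv_mul_cancel, map_one]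
  have hNN' : N' = ρ τ * N * ρ τ⁻¹ := by
    rw [hN', hN, map_mul, map_mul, mul_sub, sub_mul, mul_one, hτ]
  have h0' : N' * N' = 0 := by
    calc N' * N' = ρ τ * N * (ρ τ⁻¹ * ρ τ) * N * ρ τ⁻¹ := by
          rw [hNN']; simp only [mul_assoc]
      _ = ρ τ * (N * N) * ρ τ⁻¹ := by rw [hτ', mul_one]; simp only [mul_assoc]
      _ = 0 := by rw [h0, mul_zero, zero_mul]
  have ha : ρ σ₀ = 1 + N := by rw [hN, add_sub_cancel]
  have hb : ρ (τ * σ₀ * τ⁻¹) = 1 + N' := by rw [hN', add_sub_cancel]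
  have hinv : ∀ (g : GQ) (Y : Matrix (Fin 2) (Fin 2) (ZMod p)), ρ g = 1 + Y → Y * Y = 0 →
      ρ g⁻¹ = 1 - Y := by
    intro g Y hg hY
    have h2 : ρ g⁻¹ * ρ g = 1 := by rw [← map_mul, inv_mul_cancel, map_one]
    have h3 : ρ g * (1 - Y) = 1 := by
      rw [hg]
      have : (1 + Y) * (1 - Y) = 1 - Y * Y := by noncomm_ring
      rw [this, hY, sub_zero]
    calc ρ g⁻¹ = ρ g⁻¹ * (ρ g * (1 - Y)) := by rw [h3, mul_one]
      _ = 1 - Y := by rw [← mul_assoc, h2, one_mul]
  refine ⟨σ₀, τ * σ₀ * τ⁻¹, ?_⟩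
  rw [map_mul ρ _ (τ * σ₀ * τ⁻¹)⁻¹, map_mul ρ _ σ₀⁻¹, map_mul ρ σ₀, ha, hb,
    hinv σ₀ N ha h0, hinv _ N' hb h0', comm_trace h0 h0']
  intro h2
  have h3 : (N * N').trace = 0 := by
    have : (N * N').trace ^ 2 = 0 := by linear_combination h2
    exact pow_eq_zero_iff two_ne_zero |>.mp this
  -- Cayley-Hamilton
  have hdet : (N * N').det = 0 := by rw [Matrix.det_mul, det_zero_of_sq h0, zero_mul]
  have hCH : (N * N') * (N * N') = 0 := by
    have h4 : ∀ X : Matrix (Fin 2) (Fin 2) (ZMod p), X.trace = 0 → X.det = 0 → X * X = 0 := by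
      intro X ht hd
      rw [Matrix.trace_fin_two] at ht
      rw [Matrix.det_fin_two] at hd
      ext i j
      rw [Matrix.mul_apply, Fin.sum_univ_two, Matrix.zero_apply]
      fin_cases i <;> fin_cases j <;> simp only [Fin.zero_eta, Fin.mk_one, Fin.isValue]
      · linear_combination X 0 0 * ht - hd
      · linear_combination X 0 1 * ht
      · linear_combination X 1 0 * ht
      · linear_combination X 1 1 * ht - hd
    exact h4 _ h3 hdet
  have h5 : (N * N') *ᵥ v = (c' * c) • v := by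
    rw [← Matrix.mulVec_mulVec, e4, Matrix.mulVec_smul, e2, smul_smul]
  have h6 : ((c' * c) * (c' * c)) • v = 0 := by
    have h7 := congrArg (fun X => X *ᵥ v) hCH
    simp only [Matrix.zero_mulVec] at h7
    rw [← Matrix.mulVec_mulVec, h5, Matrix.mulVec_smul, h5, smul_smul] at h7
    exact h7
  have hv : v ≠ 0 := hli.ne_zero 0
  rcases smul_eq_zero.mp h6 with h7 | h7
  · exact mul_ne_zero (mul_ne_zero hc' hc) (mul_ne_zero hc' hc) h7
  · exact hv h7

/-- a representation modular of level prime to `p` is flat at `p` -/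
theorem flat_of_hmod (hp2 : p ≠ 2) {ρ : GQ →* Matrix (Fin 2) (Fin 2) (ZMod p)}
    (hρ : FreyLike p ρ) {M : ℕ} [NeZero M] (hpM : ¬ p ∣ M) {S : Set ℕ} (hS : S.Finite)
    (hpS : p ∈ S) (h : HMod ρ M S) : FlatLoc.IsFlatMod (FlatLoc.Zloc p) (FlatLoc.vb ρ) := by
  obtain ⟨θ, hθ⟩ := h
  have hpm : (p : ZMod p) ∈ maximalIdeal (ZMod p) := by
    rw [CharP.cast_eq_zero]
    exact zero_mem _
  haveI : IsAdicComplete (maximalIdeal (ZMod p)) (ZMod p) := by
    rw [IsLocalRing.maximalIdeal_eq_bot]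
    infer_instance
  have hT : MatCont ρ := by
    intro n
    obtain ⟨L, hL, h1⟩ := hρ.level
    refine ⟨L, hL, fun σ hσ i j => ?_⟩
    rw [h1 σ hσ, sub_self]
    exact zero_mem _
  have hfr : HData.FrobCond (piH (p := p) θ) ρ := by
    intro ℓ hℓ hℓM hℓS A hA τ hτ
    refine ⟨?_, ?_⟩
    · rw [piH_T _ hℓ hℓM hℓS]
      exact hθ ℓ hℓ _ hℓS A hA τ hτ
    · rw [hρ.det, chiK_frob p _ hℓ hA (fun h => hℓS (h ▸ hpS)) hτ]
  have h1 := FlatHopf.isFlatMod_of_S19 (PicFlat.s19Hyp M hpf.out hpM) hS hp2 hpm _ hT hfr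
    (hρ.span hp2) (RingHom.id (ZMod p)) ⟨1, by rw [pow_one, CharP.cast_eq_zero]⟩
  have h2 : mapT (RingHom.id (ZMod p)) ρ = ρ := by
    ext g i j
    rfl
  rw [h2] at h1
  exact h1

/-- **`TWCore` from the Selmer bound and Carayol's theorem** -/
theorem twCore_of (hp5 : 5 ≤ p) (hsel : TWSel p) (HC : Carayol.CarayolCore) : TWCore p := by
  classical
  intro M _ S ρ hsqf heven hpM hS hpS hMS hρ hmod hodd
  have hp2 : p ≠ 2 := by omega
  have hp : p.Prime := hpf.out
  have hflat := flat_of_hmod hp2 hρ hpM hS hpS hmod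
  obtain ⟨θ, hθ⟩ := hmod
  set I : Finset ℕ := M.primeFactors.erase 2 with hI
  have hI1 : ∀ q ∈ I, q.Prime ∧ q ∣ M ∧ q ≠ 2 := by
    intro q hq
    rw [hI, Finset.mem_erase, Nat.mem_primeFactors] at hq
    exact ⟨hq.2.1, hq.2.2.1, hq.1⟩
  have hIall : ∀ q : ℕ, q.Prime → q ∣ M → q ≠ 2 → q ∈ I := fun q h1 h2 h3 => by
    rw [hI, Finset.mem_erase, Nat.mem_primeFactors]
    exact ⟨h3, h1, h2, NeZero.ne M⟩
  have hpq : ∀ q ∈ I, p ≠ q := fun q hq h => hpM (h ▸ (hI1 q hq).2.1)
  -- exponents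
  let a : I → ℕ := fun i => ((i : ℕ) - 1).factorization p
  let m : I → ℕ := fun i => ((i : ℕ) - 1) / p ^ a i
  have hq1 : ∀ i : I, (i : ℕ) - 1 ≠ 0 := fun i => by
    have := (hI1 i i.2).1.one_lt
    omega
  have hqm : ∀ i : I, (i : ℕ) = p ^ a i * m i + 1 := fun i => by
    have h1 : p ^ a i * m i = (i : ℕ) - 1 := Nat.ordProj_mul_ordCompl_eq_self _ p
    have h2 := (hI1 i i.2).1.one_lt
    omega
  have ha : ∀ i, a i ≠ 0 := fun i => by
    have h1 := (hodd i (hI1 i i.2).1 (hI1 i i.2).2.1 (hI1 i i.2).2.2).1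
    exact (hp.factorization_pos_of_dvd (hq1 i) h1).ne'
  have hm : ∀ i, ¬ p ∣ m i := fun i => Nat.not_dvd_ordCompl hp (hq1 i)
  let Am : ℕ := Finset.univ.sup a
  have hAm : ∀ i, a i ≤ Am := fun i => Finset.le_sup (Finset.mem_univ i)
  -- the coefficient ring
  obtain ⟨O, i1, i2, i3, i4, i5, i6, i7, htf, hpO, ⟨ζ, hζ⟩, -⟩ := exists_coeff p Am
  haveI : CharP (ResidueField O) p := by
    have h1 : ((p : ℕ) : ResidueField O) = 0 := by
      rw [← map_natCast (residue O), residue_eq_zero_iff]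
      exact hpO
    exact (CharP.charP_iff_prime_eq_zero hp).mpr h1
  letI : Algebra (ZMod p) (ResidueField O) := ZMod.algebra _ p
  -- places
  have hpl : ∀ i : I, ∃ (A : ValuationSubring Qbar) (φ σ : GQ), A.LiesOverPrime i ∧
      A.IsFrobeniusAt φ i ∧ σ ∈ A.inertiaSubgroupIn ℚ ∧ ∀ π : Qbar, π ^ p = (i : ℕ) → σ π ≠ π := by
    intro i
    obtain ⟨A, hA, φ, hφ⟩ := Frob.exists_place_frobenius (hI1 i i.2).1
    obtain ⟨σ, hσ, hσ'⟩ := TWGal.exists_inertia_moving (hI1 i i.2).1 hA hp (hpq i i.2)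
    exact ⟨A, φ, σ, hA, hφ, hσ, hσ'⟩
  choose A φ σ hA hφ hσ hσ' using hpl
  let LD : LocD p I :=
    { q := fun i => i
      hq := fun i => (hI1 i i.2).1
      hpq := fun i => hpq i i.2
      A := A
      hA := hA
      φ := φ
      hφ := hφ
      σ := σ
      hσ := hσ
      hσ' := hσ' }
  have hpm : ∀ i, ρ (φ i) = 1 ∨ ρ (φ i) = -1 := fun i =>
    (hodd i (hI1 i i.2).1 (hI1 i i.2).2.1 (hI1 i i.2).2.2).2 (A i) (hA i) (φ i) (hφ i)
  let ε : I → O := fun i => if ρ (φ i) = 1 then 1 else -1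
  have hε : ∀ i, ε i ^ 2 = 1 := fun i => by
    by_cases h : ρ (φ i) = 1
    · simp only [ε, if_pos h, one_pow]
    · simp only [ε, if_neg h, neg_one_sq]
  let ρb := FlatLoc.rk (ResidueField O) ρ
  have hρb : ∀ g, ρb g = (algebraMap (ZMod p) (ResidueField O)).mapMatrix (ρ g) := fun g => rfl
  have htr : ∀ g, (ρb g).trace = algebraMap (ZMod p) (ResidueField O) (ρ g).trace := fun g => by
    rw [hρb, Matrix.trace_fin_two, Matrix.trace_fin_two, map_add]
    rfl
  have hres : ResCond LD ε ρb := by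
    refine ⟨fun i => ?_, fun i σ hσ => ?_⟩
    · by_cases h : ρ (φ i) = 1
      · have h1 : ε i = 1 := if_pos h
        rw [h1, hρb]
        change (algebraMap (ZMod p) (ResidueField O)).mapMatrix (ρ (φ i)) = _
        rw [h, map_one, map_one, one_smul]
      · have h1 : ε i = -1 := if_neg h
        rw [h1, hρb]
        change (algebraMap (ZMod p) (ResidueField O)).mapMatrix (ρ (φ i)) = _
        rw [(hpm i).resolve_left h, map_neg, map_one, map_neg, map_one, neg_smul, one_smul]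
    · rw [hρb, hρ.unram i (hI1 i i.2).1 (hI1 i i.2).2.2 (hpq i i.2).symm (A i) (hA i) σ hσ,
        map_one]
  obtain ⟨lam, hlam⟩ := (IsDiscreteValuationRing.exists_irreducible O)
  have hlam' : maximalIdeal O = Ideal.span {lam} :=
    (IsDiscreteValuationRing.irreducible_iff_uniformizer _).mp hlam
  let G : Glob p O :=
    { N := M
      nz := inferInstance
      sqf := hsqf
      even := heven
      hpN := hpM
      hp5 := hp5
      hpO := hpO
      S := S
      hS := hS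
      hpS := hpS
      hNS := hMS
      ρb := ρb
      cont := by
        obtain ⟨L, hL, h1⟩ := hρ.level
        exact ⟨L, hL, fun σ hσ => by rw [hρb, h1 σ hσ, map_one]⟩
      span := span_map_eq_top (algebraMap (ZMod p) (ResidueField O)) (hρ.span hp2)
      f := (algebraMap (ZMod p) (ResidueField O)).comp θ
      frob := fun ℓ hℓ hℓN hℓS A hA τ hτ => by
        refine ⟨?_, ?_⟩
        · rw [htr, hθ ℓ hℓ hℓN hℓS A hA τ hτ]
          rfl
        · rw [hρb, ← RingHom.map_det, hρ.det, chiK_frob p _ hℓ hA (fun h => hℓS (h ▸ hpS)) hτ,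
            map_natCast]
      comm := by
        obtain ⟨g, h, hgh⟩ := exists_comm hρ
        refine ⟨g, h, fun h1 => hgh ?_⟩
        rw [htr] at h1
        apply (algebraMap (ZMod p) (ResidueField O)).injective
        rw [h1, map_ofNat]
      I := I
      hI := hI1
      LD := LD
      hLD := fun i => rfl
      ε := ε
      hε := hε
      res := hres
      a := a
      m := m
      hqm := hqm
      ha := ha
      hm := hm
      ζ := fun i => ζ ^ p ^ (Am - a i)
      hζ := fun i => hζ.pow (pow_pos hp.pos _) (by rw [← pow_add, Nat.sub_add_cancel (hAm i)])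
      lam := lam
      hlam := hlam' }
  obtain ⟨r, hr⟩ := hsel M ρ hsqf heven hpM hρ hflat hodd (ResidueField O) S hS
  exact exists_point (G := G) htf HC hIall (r := r) hr

end Fermat.Agent.TWInst
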