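import Fermat.Agent.FlatLoc.Final2
import Fermat.Agent.S43Glue.FreyRep

/-!
# The Selmer bound: interface
-/

set_option autoImplicit false
set_option maxHeartbeats 400000

noncomputable section

namespace Fermat.Agent.TWInst

open Fermat.Agent.GalRep Fermat.Agent.DefRing

local notation "Qbar" => AlgebraicClosure ℚ

/-- the Selmer conditions on cocycles -/
structure SelCoc {k : Type} [Field k] (p N : ℕ) (Q : Finset ℕ)
    (ρb : GQ →* Matrix (Fin 2) (Fin 2) k) (c : GQ → Matrix (Fin 2) (Fin 2) k) : Prop where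
  coc : FlatLoc.IsCock ρb c
  tr : ∀ σ, (c σ).trace = 0
  lev : FlatLoc.FinLev c 0
  unr : ∀ q : ℕ, q.Prime → ¬ q ∣ N * p → q ∉ Q → ∀ A : ValuationSubring Qbar,
    A.LiesOverPrime q → ∀ σ ∈ A.inertiaSubgroupIn ℚ, c σ = 0
  odd : ∀ q : ℕ, q.Prime → q ∣ N → q ≠ 2 → ∀ A : ValuationSubring Qbar,
    A.LiesOverPrime q → ∀ σ ∈ A.decompositionSubgroup ℚ, c σ = 0
  two : ∀ A : ValuationSubring Qbar, A.LiesOverPrime 2 → ∀ σ ∈ A.inertiaSubgroupIn ℚ,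
    (c σ * ρb σ).trace = 0
  flat : FlatLoc.IsFlatMod (FlatLoc.Zloc p) (FlatLoc.ext2 ρb c coc)

/-- **the Selmer bound** (hypothesis) -/
def TWSel (p : ℕ) [Fact p.Prime] : Prop :=
  ∀ (N : ℕ) (ρ : GQ →* Matrix (Fin 2) (Fin 2) (ZMod p)), Squarefree N → 2 ∣ N → ¬ p ∣ N →
    S43Glue.FreyLike p ρ → FlatLoc.IsFlatMod (FlatLoc.Zloc p) (FlatLoc.vb ρ) →
    (∀ q : ℕ, q.Prime → q ∣ N → q ≠ 2 → p ∣ q - 1 ∧ ∀ A : ValuationSubring Qbar,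
      A.LiesOverPrime q → ∀ τ : GQ, A.IsFrobeniusAt τ q → ρ τ = 1 ∨ ρ τ = -1) →
    ∀ (k : Type) [Field k] [Finite k] [Algebra (ZMod p) k] (S : Set ℕ), S.Finite →
    ∃ r : ℕ, ∀ n : ℕ, ∃ Q : Finset ℕ, Q.card = r ∧
      (∀ q ∈ Q, q.Prime ∧ q ∉ S ∧ p ^ n ∣ q - 1 ∧
        ∃ α β : k, α ≠ β ∧ α * β = 1 ∧ ∀ A : ValuationSubring Qbar, A.LiesOverPrime q →
          ∀ τ : GQ, A.IsFrobeniusAt τ q → (FlatLoc.rk k ρ τ).trace = α + β) ∧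
      ∃ Z : Submodule k (GQ → Matrix (Fin 2) (Fin 2) k), FiniteDimensional k Z ∧
        Module.finrank k Z + 3 * (N.primeFactors.erase 2).card ≤ r + 3 ∧
        (∀ c, SelCoc p N Q (FlatLoc.rk k ρ) c → c ∈ Z) ∧
        ∀ X : Matrix (Fin 2) (Fin 2) k, X.trace = 0 →
          (fun g => X - FlatLoc.rk k ρ g * X * FlatLoc.rk k ρ g⁻¹) ∈ Z

end Fermat.Agent.TWInst
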