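import Fermat.Agent.TWGal.TameInertia
import Fermat.Agent.TWCoh.HeckeHom

/-!
# Cyclotomic characters modulo `q`
-/

set_option autoImplicit false
set_option maxHeartbeats 400000

noncomputable section

namespace Fermat.Agent.TWInst

open IsLocalRing Fermat.Agent.DefRing Fermat.Agent.GalRep Fermat.Agent.TWGal

local notation "Qbar" => AlgebraicClosure ℚ

/-- a primitive root of unity -/
def zeta (q : ℕ) [NeZero q] : Qbar :=
  (HasEnoughRootsOfUnity.exists_primitiveRoot Qbar q).choose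

theorem zeta_spec (q : ℕ) [NeZero q] : IsPrimitiveRoot (zeta q) q :=
  (HasEnoughRootsOfUnity.exists_primitiveRoot Qbar q).choose_spec

/-- the cyclotomic character modulo `q` -/
def zq (q : ℕ) [NeZero q] : GQ →* (ZMod q)ˣ := (zeta_spec q).autToPow ℚ

theorem zq_spec (q : ℕ) [NeZero q] (g : GQ) : g (zeta q) = zeta q ^ (zq q g : ZMod q).val :=
  ((zeta_spec q).autToPow_spec ℚ g).symm

theorem zq_eq {q : ℕ} [NeZero q] {g : GQ} {n : ℕ} (h : g (zeta q) = zeta q ^ n) :
    ((zq q g : (ZMod q)ˣ) : ZMod q) = n := by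
  rw [zq_spec] at h
  have hu : IsUnit (zeta q) := (zeta_spec q).isUnit (NeZero.ne q)
  obtain ⟨u, hu⟩ := hu
  have h1 : u ^ (zq q g : ZMod q).val = u ^ n := by
    apply Units.ext
    rw [Units.val_pow_eq_pow_val, Units.val_pow_eq_pow_val, hu, h]
  rw [pow_eq_pow_iff_modEq, ← orderOf_units, hu, ← (zeta_spec q).eq_orderOf,
    ← ZMod.natCast_eq_natCast_iff, ZMod.natCast_zmod_val] at h1
  exact h1

theorem zq_eq_one {q : ℕ} [NeZero q] {g : GQ} (h : g (zeta q) = zeta q) : zq q g = 1 := by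
  apply Units.ext
  have := zq_eq (n := 1) (by rw [pow_one]; exact h)
  rw [this, Nat.cast_one, Units.val_one]

theorem zq_frob {q ℓ : ℕ} [NeZero q] (hℓ : ℓ.Prime) (hℓq : ¬ ℓ ∣ q) {A : ValuationSubring Qbar}
    (hA : A.LiesOverPrime ℓ) {τ : GQ} (hτ : A.IsFrobeniusAt τ ℓ) :
    ((zq q τ : (ZMod q)ˣ) : ZMod q) = ℓ :=
  zq_eq (frob_rootOfUnity hℓ hA hτ hℓq (zeta_spec q).pow_eq_one)

theorem zq_inertia {q ℓ : ℕ} [NeZero q] (hℓ : ℓ.Prime) (hℓq : ¬ ℓ ∣ q)
    {A : ValuationSubring Qbar} (hA : A.LiesOverPrime ℓ) {σ : GQ}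
    (hσ : σ ∈ A.inertiaSubgroupIn ℚ) : zq q σ = 1 :=
  zq_eq_one (inertia_rootOfUnity hℓ hA hσ hℓq (zeta_spec q).pow_eq_one)

/-- roots of unity are congruent to one modulo `q` -/
theorem zeta_sub_one {q : ℕ} [NeZero q] (hq : q.Prime) {A : ValuationSubring Qbar}
    (hA : A.LiesOverPrime q) (n : ℕ) : A.valuation (zeta q ^ n - 1) < 1 := by
  have hz := zeta_spec q
  have hmem : zeta q ∈ A := mem_of_pow_eq_one hq.ne_zero hz.pow_eq_one
  haveI : Fact q.Prime := ⟨hq⟩
  haveI := FrobDens.charP_residueField A hq hA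
  let z : A := ⟨zeta q ^ n, pow_mem hmem n⟩
  have hzq : z ^ q = 1 := by
    apply Subtype.ext
    show (zeta q ^ n) ^ q = 1
    rw [← pow_mul, mul_comm, pow_mul, hz.pow_eq_one, one_pow]
  have h1 : residue A (z - 1) = 0 := by
    have h2 : (residue A z - 1) ^ q = 0 := by
      rw [sub_pow_char, ← map_pow, hzq, map_one, one_pow, sub_self]
    rw [map_sub, map_one]
    exact pow_eq_zero_iff hq.ne_zero |>.1 h2
  rw [residue_eq_zero_iff] at h1
  exact (A.valuation_lt_one_iff (z - 1)).mp h1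

/-- polynomial expressions in `ζ` -/
theorem adjoin_sub {q : ℕ} [NeZero q] (hq : q.Prime) {A : ValuationSubring Qbar}
    (hA : A.LiesOverPrime q) {g : GQ} {b : Qbar} (hb : b ∈ Algebra.adjoin ℤ {zeta q}) :
    A.valuation b ≤ 1 ∧ A.valuation (g b) ≤ 1 ∧ A.valuation (g b - b) < 1 := by
  have hz := zeta_spec q
  have hmem : zeta q ∈ A := mem_of_pow_eq_one hq.ne_zero hz.pow_eq_one
  have hgz : (g (zeta q)) ^ q = 1 := by rw [← map_pow, hz.pow_eq_one, map_one]
  have hmem' : g (zeta q) ∈ A := mem_of_pow_eq_one hq.ne_zero hgz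
  induction hb using Algebra.adjoin_induction with
  | mem x hx =>
    rw [Set.mem_singleton_iff] at hx
    subst hx
    refine ⟨(A.valuation_le_one_iff _).mpr hmem, (A.valuation_le_one_iff _).mpr hmem', ?_⟩
    obtain ⟨i, -, hi⟩ := hz.eq_pow_of_pow_eq_one hgz
    have h1 : g (zeta q) - zeta q = (zeta q ^ i - 1) - (zeta q ^ 1 - 1) := by
      rw [hi, pow_one]; ring
    rw [h1]
    exact (A.valuation.map_sub _ _).trans_lt (max_lt (zeta_sub_one hq hA i) (zeta_sub_one hq hA 1))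
  | algebraMap m =>
    have h1 : g (algebraMap ℤ Qbar m) = algebraMap ℤ Qbar m := by
      rw [eq_intCast, map_intCast]
    rw [h1, sub_self, map_zero]
    refine ⟨?_, ?_, zero_lt_one⟩ <;>
    · rw [A.valuation_le_one_iff, eq_intCast]
      exact intCast_mem A m
  | add x y _ _ hx hy =>
    refine ⟨(A.valuation.map_add _ _).trans (max_le hx.1 hy.1), ?_, ?_⟩
    · rw [map_add]
      exact (A.valuation.map_add _ _).trans (max_le hx.2.1 hy.2.1)
    · have h1 : g (x + y) - (x + y) = (g x - x) + (g y - y) := by rw [map_add]; ring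
      rw [h1]
      exact (A.valuation.map_add _ _).trans_lt (max_lt hx.2.2 hy.2.2)
  | mul x y _ _ hx hy =>
    refine ⟨?_, ?_, ?_⟩
    · rw [map_mul]
      exact mul_le_one' hx.1 hy.1
    · rw [map_mul, map_mul]
      exact mul_le_one' hx.2.1 hy.2.1
    · have h1 : g (x * y) - (x * y) = g x * (g y - y) + y * (g x - x) := by rw [map_mul]; ring
      rw [h1]
      refine (A.valuation.map_add _ _).trans_lt (max_lt ?_ ?_)
      · rw [map_mul]
        exact mul_lt_one_of_nonneg_of_lt_one_right hx.2.1 zero_le' hy.2.2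
      · rw [map_mul]
        exact mul_lt_one_of_nonneg_of_lt_one_right hy.1 zero_le' hx.2.2

/-- **inertia at `q` surjects onto the Galois group of the cyclotomic field** -/
theorem exists_inertia_zq {q : ℕ} [NeZero q] (hq : q.Prime) {A : ValuationSubring Qbar}
    (hA : A.LiesOverPrime q) (u : (ZMod q)ˣ) : ∃ σ ∈ A.inertiaSubgroupIn ℚ, zq q σ = u := by
  have hz := zeta_spec q
  haveI : Fact q.Prime := ⟨hq⟩
  have hprim : IsPrimitiveRoot (zeta q ^ (u : ZMod q).val) q :=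
    hz.pow_of_coprime _ (ZMod.val_coe_unit_coprime u)
  have hconj : IsConjRoot ℚ (zeta q) (zeta q ^ (u : ZMod q).val) := by
    show minpoly ℚ _ = minpoly ℚ _
    rw [← Polynomial.cyclotomic_eq_minpoly_rat hz hq.pos,
      ← Polynomial.cyclotomic_eq_minpoly_rat hprim hq.pos]
  haveI : Normal ℚ Qbar := inferInstance
  obtain ⟨g, hg⟩ := isConjRoot_iff_exists_algEquiv.mp hconj.symm
  let K := IntermediateField.adjoin ℚ {zeta q}
  have hint : IsIntegral ℚ (zeta q) := Algebra.IsIntegral.isIntegral _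
  haveI : FiniteDimensional ℚ K := IntermediateField.adjoin.finiteDimensional hint
  have hzK : zeta q ∈ K := IntermediateField.mem_adjoin_simple_self ℚ _
  have hstab : ∀ g : GQ, ∀ x ∈ K, g x ∈ K := by
    intro g x hx
    have h1 : K.map (g : Qbar →ₐ[ℚ] Qbar) ≤ K := by
      rw [IntermediateField.adjoin_map, IntermediateField.adjoin_le_iff, Set.image_singleton,
        Set.singleton_subset_iff]
      show g (zeta q) ∈ K
      rw [zq_spec]
      exact pow_mem hzK _
    exact h1 ⟨x, hx, rfl⟩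
  haveI hcyc : IsCyclotomicExtension {q} ℚ K := hz.intermediateField_adjoin_isCyclotomicExtension ℚ
  let ζ' : K := ⟨zeta q, hzK⟩
  have hζ' : IsPrimitiveRoot ζ' q := IsPrimitiveRoot.of_map_of_injective (f := algebraMap K Qbar)
    hz (algebraMap K Qbar).injective
  have hO := IsCyclotomicExtension.Rat.isIntegralClosure_adjoin_singleton_of_prime hζ'
  obtain ⟨σ, hσ, hσg⟩ := exists_inertia_of_integral hq hA K hstab g (by
    intro b hbK hb
    refine (adjoin_sub (g := g) hq hA ?_).2.2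
    have hb' : IsIntegral ℤ (⟨b, hbK⟩ : K) :=
      (isIntegral_algHom_iff (IsScalarTower.toAlgHom ℤ K Qbar) (algebraMap K Qbar).injective).mp hb
    obtain ⟨y, hy⟩ := (hO.isIntegral_iff).mp hb'
    have h1 : (⟨b, hbK⟩ : K) ∈ Algebra.adjoin ℤ {ζ'} := by
      rw [← hy]
      exact y.2
    have h2 : (IsScalarTower.toAlgHom ℤ K Qbar) (⟨b, hbK⟩ : K) ∈
        (Algebra.adjoin ℤ {ζ'}).map (IsScalarTower.toAlgHom ℤ K Qbar) := ⟨_, h1, rfl⟩
    rw [AlgHom.map_adjoin, Set.image_singleton] at h2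
    exact h2)
  refine ⟨σ, hσ, ?_⟩
  apply Units.ext
  have h1 := zq_eq (q := q) (g := σ) (n := (u : ZMod q).val) (by rw [hσg _ hzK, hg])
  rw [h1, ZMod.natCast_zmod_val]

section Psi

variable {Λ : Type} [CommRing Λ] (ψ : ∀ q : ℕ, DirichletCharacter Λ q) (s : Finset ℕ)

/-- the Galois character of a Dirichlet character -/
def gch {q : ℕ} [NeZero q] (χ : DirichletCharacter Λ q) : GQ →* Λ :=
  (Units.coeHom Λ).comp (χ.toUnitHom.comp (zq q))

theorem gch_apply {q : ℕ} [NeZero q] (χ : DirichletCharacter Λ q) (g : GQ) :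
    gch χ g = χ (zq q g : (ZMod q)ˣ) := by
  rw [gch, MonoidHom.comp_apply, MonoidHom.comp_apply, Units.coeHom_apply, MulChar.coe_toUnitHom]

/-- the product of the Galois characters -/
def Psi : GQ →* Λ := ∏ q ∈ s, if h : q = 0 then 1 else (haveI : NeZero q := ⟨h⟩; gch (ψ q))

variable {ψ s}

theorem Psi_apply (g : GQ) : Psi ψ s g =
    ∏ q ∈ s, if h : q = 0 then 1 else (haveI : NeZero q := ⟨h⟩; ψ q (zq q g : (ZMod q)ˣ)) := by
  rw [Psi, MonoidHom.finset_prod_apply]
  refine Finset.prod_congr rfl fun q _ => ?_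
  split_ifs with h
  · rfl
  · haveI : NeZero q := ⟨h⟩
    exact gch_apply _ g

/-- at Frobenius elements -/
theorem Psi_frob {ℓ : ℕ} (hℓ : ℓ.Prime) (hs : ∀ q ∈ s, ¬ ℓ ∣ q) {A : ValuationSubring Qbar}
    (hA : A.LiesOverPrime ℓ) {τ : GQ} (hτ : A.IsFrobeniusAt τ ℓ) : Psi ψ s τ = TWCoh.ws ψ s ℓ := by
  rw [Psi_apply, TWCoh.ws]
  refine Finset.prod_congr rfl fun q hq => ?_
  have hq0 : q ≠ 0 := fun h => hs q hq (h ▸ dvd_zero ℓ)
  rw [dif_neg hq0]
  haveI : NeZero q := ⟨hq0⟩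
  rw [zq_frob hℓ (hs q hq) hA hτ]

/-- at inertia -/
theorem Psi_inertia {q₀ : ℕ} [NeZero q₀] (hs : ∀ q ∈ s, q.Prime) (hq₀ : q₀ ∈ s)
    {A : ValuationSubring Qbar} (hA : A.LiesOverPrime q₀) {σ : GQ}
    (hσ : σ ∈ A.inertiaSubgroupIn ℚ) : Psi ψ s σ = ψ q₀ (zq q₀ σ : (ZMod q₀)ˣ) := by
  rw [Psi_apply, Finset.prod_eq_single q₀]
  · rw [dif_neg (NeZero.ne q₀)]
  · intro q hq hne
    rw [dif_neg (hs q hq).ne_zero]
    haveI : NeZero q := ⟨(hs q hq).ne_zero⟩
    rw [zq_inertia (hs q₀ hq₀) (fun h => hne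
      ((Nat.prime_dvd_prime_iff_eq (hs q₀ hq₀) (hs q hq)).mp h).symm) hA hσ, Units.val_one, map_one]
  · exact fun h => absurd hq₀ h

theorem Psi_isUnit (g : GQ) : IsUnit (Psi ψ s g) := by
  have h1 : Psi ψ s g * Psi ψ s g⁻¹ = 1 := by rw [← map_mul, mul_inv_cancel, map_one]
  exact IsUnit.of_mul_eq_one _ h1

/-- finite level -/
theorem Psi_level : ∃ L : IntermediateField ℚ Qbar, FiniteDimensional ℚ L ∧
    ∀ σ : GQ, (∀ x ∈ L, σ x = x) → Psi ψ s σ = 1 := by
  classical
  have key : ∀ s : Finset ℕ, ∃ L : IntermediateField ℚ Qbar, FiniteDimensional ℚ L ∧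
      ∀ σ : GQ, (∀ x ∈ L, σ x = x) → ∀ q ∈ s, ∀ h : q ≠ 0, (haveI : NeZero q := ⟨h⟩; zq q σ) = 1 := by
    intro s
    induction s using Finset.induction_on with
    | empty => exact ⟨⊥, inferInstance, fun _ _ q hq => absurd hq (Finset.notMem_empty q)⟩
    | insert q₀ s _ ih =>
      obtain ⟨L, hL, h⟩ := ih
      by_cases h0 : q₀ = 0
      · refine ⟨L, hL, fun σ hσ q hq hq0 => ?_⟩
        rcases Finset.mem_insert.mp hq with h1 | h1
        · exact absurd (h1.trans h0) hq0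
        · exact h σ hσ q h1 hq0
      · haveI : NeZero q₀ := ⟨h0⟩
        have hint : IsIntegral ℚ (zeta q₀) := Algebra.IsIntegral.isIntegral _
        haveI : FiniteDimensional ℚ (IntermediateField.adjoin ℚ {zeta q₀}) :=
          IntermediateField.adjoin.finiteDimensional hint
        refine ⟨L ⊔ IntermediateField.adjoin ℚ {zeta q₀}, inferInstance, fun σ hσ q hq hq0 => ?_⟩
        rcases Finset.mem_insert.mp hq with h1 | h1
        · subst h1
          exact zq_eq_one (hσ _ ((le_sup_right : IntermediateField.adjoin ℚ {zeta q} ≤ _)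
            (IntermediateField.mem_adjoin_simple_self ℚ _)))
        · exact h σ (fun x hx => hσ x (le_sup_left (a := L) hx)) q h1 hq0
  obtain ⟨L, hL, h⟩ := key s
  refine ⟨L, hL, fun σ hσ => ?_⟩
  rw [Psi_apply]
  refine Finset.prod_eq_one fun q hq => ?_
  split_ifs with h0
  · rfl
  · rw [h σ hσ q hq h0, Units.val_one, map_one]

end Psi

end Fermat.Agent.TWInst
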