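import Fermat.Agent.TWGal.Patch
import Fermat.Agent.GalRep.Final
import Fermat.Agent.FlatHopf.S32Core

/-!
# Representations over rings with a residue map
-/

set_option autoImplicit false
set_option maxHeartbeats 400000

namespace Fermat.Agent.TWInst

open IsLocalRing Matrix Fermat.Agent.DefRing Fermat.Agent.GalRep Fermat.Agent.TWPatch
  Fermat.Agent.TWLoc Fermat.Agent.TWGal Fermat.Agent.AnJac Fermat.Agent.HeckeQ

local notation "Qbar" => AlgebraicClosure ℚ

section

variable {N p : ℕ} [Fact p.Prime] (D : HData N p) {S : Set ℕ} (hS : S.Finite) (hN : N ≠ 0)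
  (hp2 : p ≠ 2)
  {R : Type} [CommRing R] [IsLocalRing R] [IsAdicComplete (maximalIdeal R) R]
  (hp : (p : R) ∈ maximalIdeal R) (π : D.TT S →+* R)
  {k : Type} [Field k] (κ : R →+* k) (hκ : Function.Surjective κ)
  {ρb : GQ →* Matrix (Fin 2) (Fin 2) k}

include hS hN hκ in
/-- `TWGal.exists_rep` relative to a residue map -/
theorem exists_rep_kappa
    (hcont : ∃ L : IntermediateField ℚ Qbar, FiniteDimensional ℚ L ∧
      ∀ σ : GQ, (∀ x ∈ L, σ x = x) → ρb σ = 1)
    (hfrob : ∀ (ℓ : ℕ) (hℓ : ℓ.Prime) (hℓN : ¬ ℓ ∣ N * p) (hℓS : ℓ ∉ S),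
      ∀ A : ValuationSubring Qbar, A.LiesOverPrime ℓ → ∀ τ : GQ, A.IsFrobeniusAt τ ℓ →
        (ρb τ).trace = κ (π ⟨D.T ℓ, HData.T_mem hℓ hℓN hℓS⟩) ∧ (ρb τ).det = (ℓ : k))
    (hspan : Submodule.span k (Set.range ρb) = ⊤) :
    ∃ T : GQ →* Matrix (Fin 2) (Fin 2) R, MatCont T ∧ HData.FrobCond π T ∧
      (∀ g, (T g).det = cyc p (maximalIdeal R) hp g) ∧
      (∀ g, (T g).map κ = ρb g) ∧
      Submodule.span R (Set.range T) = ⊤ ∧
      (∀ g, (T g).trace = tR hS hN hp2 hp π g) ∧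
      (∀ q : ℕ, q.Prime → ¬ q ∣ N * p → ∀ A : ValuationSubring Qbar, A.LiesOverPrime q →
        ∀ σ ∈ A.inertiaSubgroupIn ℚ, T σ = 1) := by
  have hker : RingHom.ker κ = maximalIdeal R :=
    IsLocalRing.eq_maximalIdeal (RingHom.ker_isMaximal_of_surjective κ hκ)
  let e : ResidueField R ≃+* k :=
    (Ideal.quotEquivOfEq hker.symm).trans (RingHom.quotientKerEquivOfSurjective hκ)
  have he : ∀ x : R, e (residue R x) = κ x := fun x => rfl
  have he' : ∀ x : R, e.symm (κ x) = residue R x := fun x => by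
    rw [← he, RingEquiv.symm_apply_apply]
  let ρ' : GQ →* Matrix (Fin 2) (Fin 2) (ResidueField R) := mapT (e.symm : k →+* ResidueField R) ρb
  have hρ' : ∀ g, ρ' g = (ρb g).map e.symm := fun g => rfl
  have hρe : ∀ g, (ρ' g).map e = ρb g := fun g => by
    rw [hρ']
    ext i j
    rw [Matrix.map_apply, Matrix.map_apply, RingEquiv.apply_symm_apply]
  have hcont' : ∃ L : IntermediateField ℚ Qbar, FiniteDimensional ℚ L ∧
      ∀ σ : GQ, (∀ x ∈ L, σ x = x) → ρ' σ = 1 := by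
    obtain ⟨L, hL, h⟩ := hcont
    refine ⟨L, hL, fun σ hσ => ?_⟩
    change (e.symm : k →+* ResidueField R).mapMatrix (ρb σ) = 1
    rw [h σ hσ, map_one]
  have hfrob' : ∀ (ℓ : ℕ) (hℓ : ℓ.Prime) (hℓN : ¬ ℓ ∣ N * p) (hℓS : ℓ ∉ S),
      ∀ A : ValuationSubring Qbar, A.LiesOverPrime ℓ → ∀ τ : GQ, A.IsFrobeniusAt τ ℓ →
        (ρ' τ).trace = residue R (π ⟨D.T ℓ, HData.T_mem hℓ hℓN hℓS⟩) ∧
          (ρ' τ).det = (ℓ : ResidueField R) := by
    intro ℓ hℓ hℓN hℓS A hA τ hτ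
    obtain ⟨h1, h2⟩ := hfrob ℓ hℓ hℓN hℓS A hA τ hτ
    refine ⟨?_, ?_⟩
    · rw [← he', ← h1, Matrix.trace_fin_two, Matrix.trace_fin_two, map_add]
      rfl
    · change ((e.symm : k →+* ResidueField R).mapMatrix (ρb τ)).det = _
      rw [← RingHom.map_det, h2, map_natCast]
  have hspan' : Submodule.span (ResidueField R) (Set.range ρ') = ⊤ := by
    rw [eq_top_iff]
    intro M _
    have hM : M.map e ∈ Submodule.span k (Set.range ρb) := by rw [hspan]; trivial
    have key : ∀ X ∈ Submodule.span k (Set.range ρb),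
        X.map e.symm ∈ Submodule.span (ResidueField R) (Set.range ρ') := by
      intro X hX
      induction hX using Submodule.span_induction with
      | mem x hx =>
        obtain ⟨g, rfl⟩ := hx
        exact Submodule.subset_span ⟨g, rfl⟩
      | zero =>
        have : (0 : Matrix (Fin 2) (Fin 2) k).map e.symm = 0 := by
          ext i j
          rw [Matrix.map_apply, Matrix.zero_apply, map_zero, Matrix.zero_apply]
        rw [this]
        exact Submodule.zero_mem _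
      | add x y _ _ hx hy =>
        have : (x + y).map e.symm = x.map e.symm + y.map e.symm := by
          ext i j
          rw [Matrix.map_apply, Matrix.add_apply, map_add]
          rfl
        rw [this]
        exact Submodule.add_mem _ hx hy
      | smul r x _ hx =>
        have : (r • x).map e.symm = (e.symm r) • x.map e.symm := by
          ext i j
          rw [Matrix.map_apply, Matrix.smul_apply, smul_eq_mul, map_mul]
          rfl
        rw [this]
        exact Submodule.smul_mem _ _ hx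
    have h1 := key _ hM
    have h2 : (M.map e).map e.symm = M := by
      ext i j
      rw [Matrix.map_apply, Matrix.map_apply, RingEquiv.symm_apply_apply]
    rwa [h2] at h1
  obtain ⟨T, h1, h2, h3, h4, h5, h6, h7⟩ := exists_rep (D := D) hS hN hp π hcont' hfrob' hp2 hspan'
  refine ⟨T, h1, h2, h3, fun g => ?_, h5, h6, h7⟩
  rw [← hρe, ← h4]
  ext i j
  rfl

end

/-- the composite with the Hecke algebra of level `N` -/
noncomputable def piH {N p : ℕ} [NeZero N] [Fact p.Prime] {S : Set ℕ} {R : Type} [CommRing R]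
    (g : CuspForm.heckeAlgebra N 2 S →+* R) : (hdata N p (esHyp N p)).TT S →+* R :=
  g.comp (HData.Phi S (hdata_link (esHyp N p)))

theorem piH_T {N p : ℕ} [NeZero N] [Fact p.Prime] {S : Set ℕ} {R : Type} [CommRing R]
    (g : CuspForm.heckeAlgebra N 2 S →+* R) {ℓ : ℕ} (hℓ : ℓ.Prime) (hℓN : ¬ ℓ ∣ N * p)
    (hℓS : ℓ ∉ S) : piH (p := p) g ⟨(hdata N p (esHyp N p)).T ℓ, HData.T_mem hℓ hℓN hℓS⟩ =
      g (CuspForm.heckeAlgebra.T hℓ (fun h => hℓN (h.mul_right p)) hℓS) := by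
  rw [piH, RingHom.comp_apply, HData.Phi_T]

/-- the representation attached to a homomorphism of the Hecke algebra to a local ring -/
theorem exists_rep_hecke {N p : ℕ} [NeZero N] [Fact p.Prime] {S : Set ℕ} (hS : S.Finite)
    (hp2 : p ≠ 2) {R : Type} [CommRing R] [IsLocalRing R] [IsAdicComplete (maximalIdeal R) R]
    (hp : (p : R) ∈ maximalIdeal R) (g : CuspForm.heckeAlgebra N 2 S →+* R)
    {k : Type} [Field k] (κ : R →+* k) (hκ : Function.Surjective κ)
    {ρb : GQ →* Matrix (Fin 2) (Fin 2) k}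
    (hcont : ∃ L : IntermediateField ℚ Qbar, FiniteDimensional ℚ L ∧
      ∀ σ : GQ, (∀ x ∈ L, σ x = x) → ρb σ = 1)
    (hfrob : ∀ (ℓ : ℕ) (hℓ : ℓ.Prime) (hℓN : ¬ ℓ ∣ N) (_ : ℓ ≠ p) (hℓS : ℓ ∉ S),
      ∀ A : ValuationSubring Qbar, A.LiesOverPrime ℓ → ∀ τ : GQ, A.IsFrobeniusAt τ ℓ →
        (ρb τ).trace = κ (g (CuspForm.heckeAlgebra.T hℓ hℓN hℓS)) ∧ (ρb τ).det = (ℓ : k))
    (hspan : Submodule.span k (Set.range ρb) = ⊤) :
    ∃ T : GQ →* Matrix (Fin 2) (Fin 2) R, MatCont T ∧ HData.FrobCond (piH (p := p) g) T ∧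
      (∀ g, (T g).det = cyc p (maximalIdeal R) hp g) ∧
      (∀ g, (T g).map κ = ρb g) ∧
      Submodule.span R (Set.range T) = ⊤ ∧
      (∀ x, (T x).trace = tR hS (NeZero.ne N) hp2 hp (piH (p := p) g) x) ∧
      (∀ q : ℕ, q.Prime → ¬ q ∣ N * p → ∀ A : ValuationSubring Qbar, A.LiesOverPrime q →
        ∀ σ ∈ A.inertiaSubgroupIn ℚ, T σ = 1) := by
  refine exists_rep_kappa _ hS (NeZero.ne N) hp2 hp (piH (p := p) g) κ hκ hcont ?_ hspan
  intro ℓ hℓ hℓN hℓS A hA τ hτ
  rw [piH_T]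
  exact hfrob ℓ hℓ (fun h => hℓN (h.mul_right p))
    (fun h => hℓN (h ▸ dvd_mul_left p N)) hℓS A hA τ hτ

end Fermat.Agent.TWInst
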