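import Fermat.Agent.TWInst.Lv
import Fermat.Agent.TWInst.Cyclo
import Fermat.Agent.TWCoh.Class

/-!
# Generation by traces modulo the square of the maximal ideal
-/

set_option autoImplicit false
set_option maxHeartbeats 400000

noncomputable section

namespace Fermat.Agent.TWInst

open IsLocalRing Matrix Fermat.Agent.DefRing Fermat.Agent.GalRep Fermat.Agent.TWPatch
  Fermat.Agent.TWLoc Fermat.Agent.TWGal CuspForm Fermat.Agent.AnJac Fermat.Agent.HeckeQ
open Fermat.Agent.TWCoh hiding GQ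
open scoped Pointwise

local notation "Qbar" => AlgebraicClosure ℚ

attribute [local instance] algDk LevD.cnl

/-- the algebra behind the generation by traces -/
theorem alg_aux {R : Type*} [CommRing R] (I : Ideal R) {a δ t t' dt c : R}
    (ha : a ^ 2 - t * a + dt = 0) (key : t' * (a * δ) = (a * δ) ^ 2 + dt) (hau : IsUnit a)
    (hx : δ - 1 ∈ I) (hy : t' - t ∈ I) (hcm : c * (2 * a - t) - 1 ∈ I) :
    δ - (1 + c * (t' - t)) ∈ I ^ 2 := by
  obtain ⟨v, hv⟩ := hau.exists_left_inv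
  have e1 : a * (δ - (1 + c * (t' - t))) =
      c * ((t' - t) * a * (δ - 1) - a ^ 2 * (δ - 1) ^ 2) -
      (c * (2 * a - t) - 1) * (δ - 1) * a := by
    linear_combination c * (-key - ha)
  have e2 : a * (δ - (1 + c * (t' - t))) ∈ I ^ 2 := by
    rw [e1, pow_two]
    refine sub_mem (Ideal.mul_mem_left _ _ (sub_mem ?_ ?_)) ?_
    · have : (t' - t) * a * (δ - 1) = a * ((t' - t) * (δ - 1)) := by ring
      rw [this]
      exact Ideal.mul_mem_left _ _ (Ideal.mul_mem_mul hy hx)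
    · rw [pow_two (δ - 1)]
      exact Ideal.mul_mem_left _ _ (Ideal.mul_mem_mul hx hx)
    · exact Ideal.mul_mem_right _ _ (Ideal.mul_mem_mul hcm hx)
  have e3 : δ - (1 + c * (t' - t)) = v * (a * (δ - (1 + c * (t' - t)))) := by
    rw [← mul_assoc, hv, one_mul]
  rw [e3]
  exact Ideal.mul_mem_left _ _ e2

/-- Frobenius times inertia is Frobenius -/
theorem frob_mul_inertia {A : ValuationSubring Qbar} {q : ℕ} {Φ σ : GQ}
    (hΦ : A.IsFrobeniusAt Φ q) (hσ : σ ∈ A.inertiaSubgroupIn ℚ) :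
    A.IsFrobeniusAt (Φ * σ) q := by
  have hσ1 := inertia_le_decomp hσ
  rw [FrobDens.isFrobeniusAt_iff] at hΦ ⊢
  refine ⟨by rw [mul_smul, mem_decomp_iff.mp hσ1, hΦ.1], fun x hx => ?_⟩
  have h1 : (Φ * σ) x - x ^ q = Φ (σ x - x) + (Φ x - x ^ q) := by
    rw [AlgEquiv.mul_apply, map_sub]; ring
  rw [h1]
  refine (A.valuation.map_add _ _).trans_lt (max_lt ?_ (hΦ.2 x hx))
  rw [valuation_decomp (mem_decomp_iff.mpr hΦ.1)]
  exact valuation_sub_lt_of_mem_inertia hσ hx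

variable {p : ℕ} [hpf : Fact p.Prime] {O : Type} [CommRing O] [CNL O] {G : Glob p O}
  [Nontrivial (M0 O G.N G.τ)] [CNL G.R₀] {ρ₀ : Rep0 G} {r n : ℕ} {L : LevD G r n}
  {gn : heckeAlgebra L.NN 2 (bad L.Q) →+* L.R}

/-- the Galois character `Ψ` -/
abbrev LevD.Ψ₁ (L : LevD G r n) : GQ →* DRing O p n r := Psi L.ψ₁ (allP L.Q G.I)

/-- the Galois character `Ψ` -/
abbrev LevD.Ψ₂ (L : LevD G r n) : GQ →* DRing O p n r := Psi L.ψ₂ (allP L.Q G.I)

section Hyp

variable (K : Type) [Field K] [Algebra O K]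

/-- local-global compatibility at the points of the first type -/
def LGC₁ (ρn : RepN (ρ₀ := ρ₀) gn) : Prop :=
  ∀ (e : L.P₁ K) (j : Fin r) (A : ValuationSubring Qbar), A.LiesOverPrime (L.qs j).1 →
    ∀ Φ : GQ, A.IsFrobeniusAt Φ (L.qs j).1 →
    (chHom O K _ e.1 (L.Ψ₁ Φ) * e.2.y (FN.X L.pcond L.ψ₁ (L.qs j))) ^ 2 -
      yy₁ e (ρn.T Φ).trace * (chHom O K _ e.1 (L.Ψ₁ Φ) * e.2.y (FN.X L.pcond L.ψ₁ (L.qs j))) +
      yy₁ e (ρn.T Φ).det = 0

/-- local-global compatibility at the points of the second type -/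
def LGC₂ (ρn : RepN (ρ₀ := ρ₀) gn) : Prop :=
  ∀ (e : L.P₂ K) (j : Fin r) (A : ValuationSubring Qbar), A.LiesOverPrime (L.qs j).1 →
    ∀ Φ : GQ, A.IsFrobeniusAt Φ (L.qs j).1 →
    (chHom O K _ e.1 (L.Ψ₂ Φ) * e.2.y (FN.X L.pcond L.ψ₂ (L.qs j))) ^ 2 -
      yy₂ e (ρn.T Φ).trace * (chHom O K _ e.1 (L.Ψ₂ Φ) * e.2.y (FN.X L.pcond L.ψ₂ (L.qs j))) +
      yy₂ e (ρn.T Φ).det = 0

end Hyp

/-- the residue map of the full Hecke algebra restricts to the one of the combined one -/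
theorem resFN_toFN₁ [Nontrivial (MQ (N := G.N) (I := G.I) G.τ L.α L.pcond.cdr_dvd L.ψ₁)]
    (x : L.R) : (haveI := G.cnlDk n r; resFN L.pcond L.ψ₁ (toFN₁ L.pcond x)) = L.κ x := by
  haveI := G.cnlDk n r
  have key : ∀ x ∈ Algebra.adjoin (DRing O p n r) (Set.range (TN.T L.pcond)),
      resFN L.pcond L.ψ₁ (toFN₁ L.pcond x) = L.κ x := by
    intro x hx
    induction hx using Algebra.adjoin_induction with
    | mem x hx =>
      obtain ⟨l, rfl⟩ := hx
      rw [toFN₁_T, map_mul, resFN_algebraMap, resFN_X, L.κ_T, L.pcond.wk L.pcond.pow₁, one_mul,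
        modE_incl]
    | algebraMap a =>
      rw [toFN₁_algebraMap, resFN_algebraMap, L.κ_Λ]
      rfl
    | add x y _ _ hx hy => rw [map_add, map_add, map_add, hx, hy]
    | mul x y _ _ hx hy => rw [map_mul, map_mul, map_mul, hx, hy]
  exact key x (by rw [TN.adjoin]; trivial)

theorem resFN_toFN₂ [Nontrivial (MQ (N := G.N) (I := G.I) G.τ L.α L.pcond.cdr_dvd L.ψ₂)]
    (x : L.R) : (haveI := G.cnlDk n r; resFN L.pcond L.ψ₂ (toFN₂ L.pcond x)) = L.κ x := by
  haveI := G.cnlDk n r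
  have key : ∀ x ∈ Algebra.adjoin (DRing O p n r) (Set.range (TN.T L.pcond)),
      resFN L.pcond L.ψ₂ (toFN₂ L.pcond x) = L.κ x := by
    intro x hx
    induction hx using Algebra.adjoin_induction with
    | mem x hx =>
      obtain ⟨l, rfl⟩ := hx
      rw [toFN₂_T, map_mul, resFN_algebraMap, resFN_X, L.κ_T, L.pcond.wk L.pcond.pow₂, one_mul,
        modE_incl]
    | algebraMap a =>
      rw [toFN₂_algebraMap, resFN_algebraMap, L.κ_Λ]
      rfl
    | add x y _ _ hx hy => rw [map_add, map_add, map_add, hx, hy]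
    | mul x y _ _ hx hy => rw [map_mul, map_mul, map_mul, hx, hy]
  exact key x (by rw [TN.adjoin]; trivial)

/-- a point avoids elements with nonzero residue -/
theorem EPt_ne {ψ : ∀ q : ℕ, DirichletCharacter (DRing O p n r) q} {K : Type} [Field K]
    {κ : DRing O p n r →+* K} (e : EPt L.pcond ψ K κ)
    [Nontrivial (MQ (N := G.N) (I := G.I) G.τ L.α L.pcond.cdr_dvd ψ)] {t : FN L.pcond ψ}
    (ht : (haveI := G.cnlDk n r; resFN L.pcond ψ t) ≠ 0) : e.y t ≠ 0 := by
  haveI := G.cnlDk n r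
  haveI := isLocalRing_FN L.pcond ψ
  have h2 : IsUnit t := by
    by_contra hu
    have hmem : t ∈ maximalIdeal (FN L.pcond ψ) := hu
    have hk : RingHom.ker (resFN L.pcond ψ) = maximalIdeal (FN L.pcond ψ) := by
      refine IsLocalRing.eq_maximalIdeal (RingHom.ker_isMaximal_of_surjective _ fun x => ?_)
      obtain ⟨r, rfl⟩ := L.pcond.hΛk x
      exact ⟨algebraMap _ _ r, resFN_algebraMap L.pcond ψ r⟩
    rw [← hk] at hmem
    exact ht hmem
  exact (h2.map e.y).ne_zero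

/-- **Hensel root** -/
theorem exists_hensel (ρn : RepN (ρ₀ := ρ₀) gn) (j : Fin r) {A : ValuationSubring Qbar}
    (hA : A.LiesOverPrime (L.qs j).1) {Φ : GQ} (hΦ : A.IsFrobeniusAt Φ (L.qs j).1) :
    ∃ a : L.R, a ^ 2 - (ρn.T Φ).trace * a + (ρn.T Φ).det = 0 ∧ L.κ a = L.α (L.qs j) := by
  have htr : L.κ (ρn.T Φ).trace = L.α (L.qs j) + L.β (L.qs j) := by
    rw [← L.sum, ← G.trace_frob _ hA hΦ, ← ρn.res, Matrix.trace_fin_two, Matrix.trace_fin_two,
      map_add]
    rfl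
  have hdet : L.κ (ρn.T Φ).det = L.α (L.qs j) * L.β (L.qs j) := by
    rw [L.prod, ρn.det, cyc_frob p _ _ (L.qs j).2.1 hA (fun h => (L.qs j).2.2 (by rw [h]; exact G.hpS)) hΦ,
      map_natCast, L.qs_one]
  obtain ⟨a₀, ha₀⟩ := residue_surjective (L.α (L.qs j))
  have hκ : ∀ x : O, L.κ (algebraMap O L.R x) = residue O x := fun x => L.κ.commutes x
  have hmem : ∀ x : L.R, x ∈ maximalIdeal L.R ↔ L.κ x = 0 := fun x => by
    rw [← ker_kappa L.κ]; exact Iff.rfl
  let f : Polynomial L.R := Polynomial.X ^ 2 - Polynomial.C (ρn.T Φ).trace * Polynomial.X +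
    Polynomial.C (ρn.T Φ).det
  have hf : f.Monic := by
    have h1 : f = Polynomial.X ^ 2 + (Polynomial.C (-(ρn.T Φ).trace) * Polynomial.X +
        Polynomial.C (ρn.T Φ).det) := by
      simp only [f, Polynomial.C_neg]; ring
    rw [h1]
    refine Polynomial.monic_X_pow_add ?_
    refine lt_of_le_of_lt Polynomial.degree_linear_le ?_
    norm_num
  haveI : HenselianRing L.R (maximalIdeal L.R) := IsAdicComplete.henselianRing _ _
  obtain ⟨a, ha1, ha2⟩ := HenselianRing.is_henselian (I := maximalIdeal L.R) f hf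
    (algebraMap O L.R a₀) (by
    rw [hmem]
    simp only [f, Polynomial.eval_add, Polynomial.eval_sub, Polynomial.eval_mul,
      Polynomial.eval_pow, Polynomial.eval_X, Polynomial.eval_C, map_add, map_sub, map_mul,
      map_pow, htr, hdet, hκ, ha₀]
    ring) (by
    refine IsUnit.map _ ?_
    by_contra hu
    have hu' : f.derivative.eval (algebraMap O L.R a₀) ∈ maximalIdeal L.R := hu
    rw [hmem] at hu'
    simp only [f, Polynomial.derivative_add, Polynomial.derivative_sub, Polynomial.derivative_mul,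
      Polynomial.derivative_X_pow, Polynomial.derivative_C, Polynomial.derivative_X,
      Polynomial.eval_add, Polynomial.eval_sub, Polynomial.eval_mul, Polynomial.eval_pow,
      Polynomial.eval_X, Polynomial.eval_C, Polynomial.eval_natCast, Polynomial.eval_one,
      map_add, map_sub, map_mul, map_pow, htr, hκ, ha₀, Polynomial.eval_zero, map_zero, map_one,
      map_natCast] at hu'
    apply L.dist j
    have h3 : L.α (L.qs j) - L.β (L.qs j) = 0 := by
      rw [← hu']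
      push_cast
      ring
    exact sub_eq_zero.mp h3)
  refine ⟨a, ?_, ?_⟩
  · have h1 : f.eval a = 0 := ha1
    simp only [f, Polynomial.eval_add, Polynomial.eval_sub, Polynomial.eval_mul,
      Polynomial.eval_pow, Polynomial.eval_X, Polynomial.eval_C] at h1
    exact h1
  · rw [hmem, map_sub, hκ, ha₀, sub_eq_zero] at ha2
    exact ha2

/-- the residue of `Ψ` -/
theorem Psi_res {ψ : ∀ q : ℕ, DirichletCharacter (DRing O p n r) q}
    (hpow : ∀ q ∈ allP L.Q G.I, ∃ e, ψ q ^ p ^ e = 1) (g : GQ) :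
    algebraMap (DRing O p n r) (ResidueField O) (Psi ψ (allP L.Q G.I) g) = 1 := by
  rw [Psi_apply, map_prod]
  refine Finset.prod_eq_one fun q hq => ?_
  rw [dif_neg (L.prime_allP hq).ne_zero]
  haveI : NeZero q := ⟨(L.prime_allP hq).ne_zero⟩
  obtain ⟨e, he⟩ := hpow q hq
  refine pow_char_eq_one hpf.out G.pk (e := e) ?_
  rw [← map_pow, ← MulChar.pow_apply_coe, he, MulChar.one_apply_coe, map_one]

theorem qs_mem_allP (j : Fin r) : (L.qs j).1 ∈ allP L.Q G.I := L.mem_allP.mpr (Or.inl ⟨j, rfl⟩)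

/-- the trace identity at a point -/
theorem point_identity {ψ : ∀ q : ℕ, DirichletCharacter (DRing O p n r) q} {K : Type} [Field K]
    {κ : DRing O p n r →+* K} (e : EPt L.pcond ψ K κ)
    (F : L.R →+* FN L.pcond ψ)
    (hFκ : ∀ [Nontrivial (MQ (N := G.N) (I := G.I) G.τ L.α L.pcond.cdr_dvd ψ)] (x : L.R),
      (haveI := G.cnlDk n r; resFN L.pcond ψ (F x)) = L.κ x)
    (hF : ∀ x : DRing O p n r, F (algebraMap _ L.R x) = algebraMap _ _ x)
    (hpow : ∀ q ∈ allP L.Q G.I, ∃ e, ψ q ^ p ^ e = 1)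
    (ρn : RepN (ρ₀ := ρ₀) gn) (j : Fin r) (hψj : ψ (L.qs j).1 = L.ψ (L.qs j).1)
    [NeZero (L.qs j).1]
    {A : ValuationSubring Qbar} (hA : A.LiesOverPrime (L.qs j).1)
    (H : ∀ Φ : GQ, A.IsFrobeniusAt Φ (L.qs j).1 →
      (κ (Psi ψ (allP L.Q G.I) Φ) * e.y (FN.X L.pcond ψ (L.qs j))) ^ 2 -
      e.y (F (ρn.T Φ).trace) * (κ (Psi ψ (allP L.Q G.I) Φ) * e.y (FN.X L.pcond ψ (L.qs j))) +
      e.y (F (ρn.T Φ).det) = 0)
    {Φ : GQ} (hΦ : A.IsFrobeniusAt Φ (L.qs j).1) {a : L.R}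
    (ha : a ^ 2 - (ρn.T Φ).trace * a + (ρn.T Φ).det = 0) (hκa : L.κ a = L.α (L.qs j))
    {σ : GQ} (hσ : σ ∈ A.inertiaSubgroupIn ℚ) :
    e.y (F ((ρn.T (Φ * σ)).trace *
      (a * algebraMap _ L.R (L.ψ (L.qs j).1 (zq (L.qs j).1 σ : (ZMod (L.qs j).1)ˣ))))) =
    e.y (F ((a * algebraMap _ L.R (L.ψ (L.qs j).1 (zq (L.qs j).1 σ : (ZMod (L.qs j).1)ˣ))) ^ 2 +
      (ρn.T Φ).det)) := by
  haveI := G.cnlDk n r
  haveI := e.nontrivial
  have htr : L.κ (ρn.T Φ).trace = L.α (L.qs j) + L.β (L.qs j) := by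
    rw [← L.sum, ← G.trace_frob _ hA hΦ, ← ρn.res, Matrix.trace_fin_two, Matrix.trace_fin_two,
      map_add]
    rfl
  -- identification of the root
  set E := κ (Psi ψ (allP L.Q G.I) Φ) * e.y (FN.X L.pcond ψ (L.qs j)) with hE
  have hroot : E = e.y (F a) := by
    have h1 := H Φ hΦ
    rw [← hE] at h1
    have h2 := congrArg (fun x => e.y (F x)) ha
    simp only [map_add, map_sub, map_mul, map_pow, map_zero] at h2
    have h3 : (E - e.y (F a)) * (E - e.y (F ((ρn.T Φ).trace - a))) = 0 := by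
      rw [map_sub, map_sub]
      linear_combination h1 - h2
    rcases mul_eq_zero.mp h3 with h4 | h4
    · exact sub_eq_zero.mp h4
    · exfalso
      have h5 : e.y (algebraMap _ _ (Psi ψ (allP L.Q G.I) Φ) * FN.X L.pcond ψ (L.qs j) -
          F ((ρn.T Φ).trace - a)) = 0 := by
        rw [map_sub, map_mul, e.y_algebraMap]
        exact h4
      refine EPt_ne e ?_ h5
      rw [map_sub, map_mul, resFN_algebraMap, Psi_res hpow, resFN_X, hFκ, map_sub, htr, hκa,
        one_mul, modE, if_pos (L.mem_Q.mpr ⟨j, rfl⟩)]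
      intro h6
      apply L.dist j
      linear_combination h6
  have h7 := H (Φ * σ) (frob_mul_inertia hΦ hσ)
  have h8 : κ (Psi ψ (allP L.Q G.I) (Φ * σ)) * e.y (FN.X L.pcond ψ (L.qs j)) =
      e.y (F (a * algebraMap _ L.R (L.ψ (L.qs j).1 (zq (L.qs j).1 σ : (ZMod (L.qs j).1)ˣ)))) := by
    rw [map_mul (Psi ψ (allP L.Q G.I)), map_mul κ,
      Psi_inertia (fun q hq => L.prime_allP hq) (qs_mem_allP j) hA hσ, hψj, map_mul F,
      map_mul e.y, hF, e.y_algebraMap, ← hroot, hE]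
    ring
  have h9 : (ρn.T (Φ * σ)).det = (ρn.T Φ).det := by
    rw [map_mul, Matrix.det_mul, ρn.det σ, cyc_inertia p _ _ (L.qs j).2.1 hA
      (fun h => (L.qs j).2.2 (by rw [h]; exact G.hpS)) hσ, mul_one]
  rw [h8, h9] at h7
  rw [map_mul F, map_mul e.y, map_add F, map_add e.y, map_pow F, map_pow e.y]
  linear_combination -h7

/-- **the trace identity** -/
theorem trace_identity {K : Type} [Field K] [CharZero K] [IsAlgClosed K] [Algebra O K]
    (hinj : Function.Injective (algebraMap O K)) (ρn : RepN (ρ₀ := ρ₀) gn)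
    (h1 : LGC₁ K ρn) (h2 : LGC₂ K ρn) (j : Fin r) [NeZero (L.qs j).1]
    {A : ValuationSubring Qbar} (hA : A.LiesOverPrime (L.qs j).1)
    {Φ : GQ} (hΦ : A.IsFrobeniusAt Φ (L.qs j).1) {a : L.R}
    (ha : a ^ 2 - (ρn.T Φ).trace * a + (ρn.T Φ).det = 0) (hκa : L.κ a = L.α (L.qs j))
    {σ : GQ} (hσ : σ ∈ A.inertiaSubgroupIn ℚ) :
    (ρn.T (Φ * σ)).trace *
      (a * algebraMap _ L.R (L.ψ (L.qs j).1 (zq (L.qs j).1 σ : (ZMod (L.qs j).1)ˣ))) =
    (a * algebraMap _ L.R (L.ψ (L.qs j).1 (zq (L.qs j).1 σ : (ZMod (L.qs j).1)ˣ))) ^ 2 +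
      (ρn.T Φ).det := by
  refine ext_points hinj (fun e => ?_) (fun e => ?_)
  · exact point_identity e.2 (toFN₁ L.pcond) (fun x => resFN_toFN₁ x) (toFN₁_algebraMap _)
      L.pcond.pow₁ ρn j rfl hA (fun Φ hΦ => h1 e j A hA Φ hΦ) hΦ ha hκa hσ
  · exact point_identity e.2 (toFN₂ L.pcond) (fun x => resFN_toFN₂ x) (toFN₂_algebraMap _)
      L.pcond.pow₂ ρn j (L.ψ₂_qs j) hA (fun Φ hΦ => h2 e j A hA Φ hΦ) hΦ ha hκa hσ

/-- diamonds are congruent to combinations of traces -/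
theorem exists_diamond_trace {K : Type} [Field K] [CharZero K] [IsAlgClosed K] [Algebra O K]
    (hinj : Function.Injective (algebraMap O K)) (ρn : RepN (ρ₀ := ρ₀) gn)
    (h1 : LGC₁ K ρn) (h2 : LGC₂ K ρn) (j : Fin r) (u : (ZMod (L.qs j).1)ˣ) :
    ∃ b ∈ Algebra.adjoin O (Set.range fun g => (ρn.T g).trace),
      algebraMap _ L.R (L.ψ (L.qs j).1 u) - b ∈ maximalIdeal L.R ^ 2 := by
  haveI : NeZero (L.qs j).1 := ⟨(L.qs j).2.1.ne_zero⟩
  obtain ⟨A, hA, Φ, hΦ⟩ := Frob.exists_place_frobenius (L.qs j).2.1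
  obtain ⟨σ, hσ, rfl⟩ := exists_inertia_zq (L.qs j).2.1 hA u
  obtain ⟨a, ha, hκa⟩ := exists_hensel ρn j hA hΦ
  have key := trace_identity hinj ρn h1 h2 j hA hΦ ha hκa hσ
  set δ := algebraMap _ L.R (L.ψ (L.qs j).1 (zq (L.qs j).1 σ : (ZMod (L.qs j).1)ˣ)) with hδ
  have hκ : ∀ x : O, L.κ (algebraMap O L.R x) = residue O x := fun x => L.κ.commutes x
  have hmem : ∀ x : L.R, x ∈ maximalIdeal L.R ↔ L.κ x = 0 := fun x => by
    rw [← ker_kappa L.κ]; exact Iff.rfl
  have htr : L.κ (ρn.T Φ).trace = L.α (L.qs j) + L.β (L.qs j) := by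
    rw [← L.sum, ← G.trace_frob _ hA hΦ, ← ρn.res, Matrix.trace_fin_two, Matrix.trace_fin_two,
      map_add]
    rfl
  have hκδ : L.κ δ = 1 := by
    rw [hδ, L.κ_Λ, L.hψa, map_one]
  have htr' : L.κ (ρn.T (Φ * σ)).trace = L.κ (ρn.T Φ).trace := by
    have e1 : ∀ g, L.κ (ρn.T g).trace = (G.ρb g).trace := fun g => by
      rw [← ρn.res, Matrix.trace_fin_two, Matrix.trace_fin_two, map_add]
      rfl
    rw [e1, e1, G.trace_frob _ hA hΦ, G.trace_frob _ hA (frob_mul_inertia hΦ hσ)]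
  set t := (ρn.T Φ).trace with ht
  set t' := (ρn.T (Φ * σ)).trace with ht'
  set dt := (ρn.T Φ).det with hdt
  have hdist : L.α (L.qs j) - L.β (L.qs j) ≠ 0 := sub_ne_zero.mpr (L.dist j)
  have hα : L.α (L.qs j) ≠ 0 := fun h0 => by
    have := L.prod j
    rw [h0, zero_mul] at this
    exact zero_ne_one this
  obtain ⟨c, hc⟩ := residue_surjective (L.α (L.qs j) - L.β (L.qs j))⁻¹
  have hx : δ - 1 ∈ maximalIdeal L.R := by rw [hmem, map_sub, hκδ, map_one, sub_self]
  have hy : t' - t ∈ maximalIdeal L.R := by rw [hmem, map_sub, htr', sub_self]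
  have hau : IsUnit a := by
    by_contra hu
    have hu' : a ∈ maximalIdeal L.R := hu
    rw [hmem, hκa] at hu'
    exact hα hu'
  have hcm : algebraMap O L.R c * (2 * a - t) - 1 ∈ maximalIdeal L.R := by
    rw [hmem, map_sub, map_mul, hκ, hc, map_sub, map_mul, hκa, htr, map_one, map_ofNat]
    have e2 : 2 * L.α (L.qs j) - (L.α (L.qs j) + L.β (L.qs j)) =
        L.α (L.qs j) - L.β (L.qs j) := by ring
    rw [e2, inv_mul_cancel₀ hdist, sub_self]
  refine ⟨1 + algebraMap O L.R c * (t' - t), ?_, ?_⟩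
  · refine add_mem (one_mem _) (mul_mem (Subalgebra.algebraMap_mem _ _) (sub_mem ?_ ?_))
    · exact Algebra.subset_adjoin ⟨_, rfl⟩
    · exact Algebra.subset_adjoin ⟨_, rfl⟩
  · exact alg_aux _ ha key hau hx hy hcm

/-- **generation by traces modulo the square of the maximal ideal** -/
theorem exists_trace_gen {K : Type} [Field K] [CharZero K] [IsAlgClosed K] [Algebra O K]
    (hinj : Function.Injective (algebraMap O K)) (hg : ∀ l : PS (bad L.Q),
      gn (gT L.pcond.dat₁.avoid l) = TN.T L.pcond l) (ρn : RepN (ρ₀ := ρ₀) gn)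
    (h1 : LGC₁ K ρn) (h2 : LGC₂ K ρn) (x : L.R) :
    ∃ b ∈ Algebra.adjoin O (Set.range fun g => (ρn.T g).trace), x - b ∈ maximalIdeal L.R ^ 2 := by
  let B : Subalgebra O L.R := Algebra.adjoin O (Set.range fun g => (ρn.T g).trace)
  let W : Subalgebra O L.R :=
    (B.map (Ideal.Quotient.mkₐ O (maximalIdeal L.R ^ 2))).comap
      (Ideal.Quotient.mkₐ O (maximalIdeal L.R ^ 2))
  have hW : ∀ x : L.R, x ∈ W ↔ ∃ b ∈ B, x - b ∈ maximalIdeal L.R ^ 2 := by
    intro x
    constructor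
    · rintro ⟨b, hb, h⟩
      refine ⟨b, hb, ?_⟩
      rw [← Ideal.Quotient.eq]
      exact h.symm
    · rintro ⟨b, hb, h⟩
      exact ⟨b, hb, (Ideal.Quotient.eq.mpr h).symm⟩
  have hBW : ∀ x ∈ B, x ∈ W := fun x hx => (hW x).mpr ⟨x, hx, by rw [sub_self]; exact zero_mem _⟩
  -- the diamonds
  have hψ : ∀ j (u : (ZMod (L.qs j).1)ˣ), algebraMap _ L.R (L.ψ (L.qs j).1 u) ∈ W := fun j u =>
    (hW _).mpr (exists_diamond_trace hinj ρn h1 h2 j u)
  have hsgl : ∀ j (v : Multiplicative (ZMod (p ^ n))),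
      algebraMap _ L.R (MonoidAlgebra.of O _ (sgl (r := r) j v)) ∈ W := by
    intro j v
    obtain ⟨u, rfl⟩ := L.hfl j v
    rw [← L.hψsq, map_pow]
    exact pow_mem (hψ j u) 2
  have hof : ∀ v : DG p n r, algebraMap _ L.R (MonoidAlgebra.of O _ v) ∈ W := by
    intro v
    have h3 : v = ∏ j, sgl j (v j) := by
      funext i
      rw [Finset.prod_apply, Finset.prod_eq_single i]
      · change v i = (Pi.mulSingle i (v i) : DG p n r) i
        rw [Pi.mulSingle_eq_same]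
      · intro j _ hj
        change (Pi.mulSingle j (v j) : DG p n r) i = 1
        rw [Pi.mulSingle_eq_of_ne hj.symm]
      · exact fun h => absurd (Finset.mem_univ i) h
    rw [h3, map_prod, map_prod]
    exact prod_mem fun j _ => hsgl j _
  have hΛ : ∀ y : DRing O p n r, algebraMap _ L.R y ∈ W := by
    intro y
    induction y using MonoidAlgebra.induction_on with
    | of g => exact hof g
    | add x y hx hy => rw [map_add]; exact add_mem hx hy
    | smul a x hx =>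
      have : algebraMap _ L.R (a • x) = algebraMap O L.R a * algebraMap _ L.R x := by
        rw [Algebra.smul_def, map_mul]
        rfl
      rw [this]
      exact mul_mem (Subalgebra.algebraMap_mem _ _) hx
  have hT : ∀ l : PS (bad L.Q), TN.T L.pcond l ∈ W := by
    intro l
    obtain ⟨A, hA, τ, hτ⟩ := Frob.exists_place_frobenius l.2.1
    have hlp : ¬ l.1 ∣ L.NN * p := NN_p_of L l.2.1 (L.pcond.dat₁.avoid l)
      (fun h => l.2.2 (Or.inl (by rw [h]; exact G.hpS)))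
    have h3 := (ρn.frob l.1 l.2.1 hlp l.2.2 A hA τ hτ).1
    rw [piH_T _ l.2.1 hlp l.2.2] at h3
    have h4 : (ρn.T τ).trace = TN.T L.pcond l := h3.trans (hg l)
    rw [← h4]
    exact hBW _ (Algebra.subset_adjoin ⟨τ, rfl⟩)
  have key : ∀ x ∈ Algebra.adjoin (DRing O p n r) (Set.range (TN.T L.pcond)), x ∈ W := by
    intro x hx
    induction hx using Algebra.adjoin_induction with
    | mem x hx =>
      obtain ⟨l, rfl⟩ := hx
      exact hT l
    | algebraMap a => exact hΛ a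
    | add x y _ _ hx hy => exact add_mem hx hy
    | mul x y _ _ hx hy => exact mul_mem hx hy
  exact (hW x).mp (key x (by rw [TN.adjoin]; trivial))

end Fermat.Agent.TWInst
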