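import Fermat.Agent.TWLoc.Package

/-!
# The fields of coefficients
-/

set_option autoImplicit false
set_option maxHeartbeats 400000

noncomputable section

namespace Fermat.Agent.TWInst

open IsLocalRing Fermat.Agent.TWPatch Fermat.Agent.TWLoc Cardinal

variable {p : ℕ} [hpf : Fact p.Prime]

theorem card_padic_le : #ℚ_[p] ≤ 𝔠 := by
  have h1 : #(PadicSeq p) ≤ 𝔠 := by
    have h2 : #(PadicSeq p) ≤ #(ℕ → ℚ) := Cardinal.mk_subtype_le _
    refine h2.trans ?_
    rw [← Cardinal.power_def, Cardinal.mkRat, Cardinal.mk_nat, Cardinal.aleph0_power_aleph0]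
  exact (Cardinal.mk_le_of_surjective (f := Padic.mk (p := p)) Quotient.mk_surjective).trans h1

/-- the algebraic closure of `ℚ_p` inside `ℂ_p` -/
abbrev KK (p : ℕ) [Fact p.Prime] : Type := algebraicClosure ℚ_[p] ℂ_[p]

instance : IsAlgClosed (KK p) := IsAlgClosure.isAlgClosed ℚ_[p]

instance : CharZero ℂ_[p] := algebraRat.charZero _

instance : CharZero (KK p) := algebraRat.charZero _

theorem card_KK : #(KK p) = 𝔠 := by
  refine le_antisymm ?_ ?_
  · have h1 := Algebra.IsAlgebraic.cardinalMk_le_max ℚ_[p] (KK p)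
    refine h1.trans (max_le card_padic_le Cardinal.aleph0_le_continuum)
  · exact (continuum_le_cardinal_of_nontriviallyNormedField ℚ_[p]).trans
      (Cardinal.mk_le_of_injective (algebraMap ℚ_[p] (KK p)).injective)

theorem exists_complex : Nonempty (KK p →+* ℂ) := by
  obtain ⟨e⟩ := IsAlgClosed.ringEquiv_of_equiv_of_charZero (K := KK p) (L := ℂ)
    (by rw [card_KK]; exact Cardinal.aleph0_lt_continuum)
    (by
      have h1 : #(KK p) = #ℂ := by rw [card_KK, Cardinal.mk_complex]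
      exact Cardinal.eq.mp h1)
  exact ⟨e⟩

/-- **the fields of coefficients** -/
theorem exists_fields (O : Type) [CommRing O] [IsDomain O] [CNL O] [Algebra ℤ_[p] O]
    [Module.Finite ℤ_[p] O] (htf : Function.Injective (algebraMap ℤ_[p] O)) :
    ∃ (φ : O →+* KK p) (c : ℝ), Function.Injective φ ∧ (∀ a, ‖(φ a : ℂ_[p])‖ ≤ 1) ∧ c < 1 ∧
      (∀ a ∈ maximalIdeal O, ‖(φ a : ℂ_[p])‖ ≤ c) := by
  obtain ⟨φ, c, h1, h2, h3, h4, h5⟩ := exists_embedding p O htf
  have h6 : ∀ a : O, φ a ∈ algebraicClosure ℚ_[p] ℂ_[p] := by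
    intro a
    rw [mem_algebraicClosure_iff]
    have h7 : IsIntegral ℤ_[p] a := Algebra.IsIntegral.isIntegral a
    obtain ⟨P, hP, hPa⟩ := h7
    refine IsIntegral.isAlgebraic ⟨P.map (algebraMap ℤ_[p] ℚ_[p]), hP.map _, ?_⟩
    rw [Polynomial.eval₂_map]
    have h8 : (algebraMap ℚ_[p] ℂ_[p]).comp (algebraMap ℤ_[p] ℚ_[p]) =
        φ.comp (algebraMap ℤ_[p] O) := RingHom.ext fun x => (h5 x).symm
    rw [h8, ← Polynomial.hom_eval₂, hPa, map_zero]
  exact ⟨φ.codRestrict (algebraicClosure ℚ_[p] ℂ_[p]) h6, c, fun a b hab => h1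
    (congrArg Subtype.val hab), h2, h3, h4⟩

end Fermat.Agent.TWInst
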