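import Fermat.Agent.TWGal.Local

/-!
# Representations on inertia at a tame prime
-/

set_option autoImplicit false
set_option maxHeartbeats 400000

noncomputable section

namespace Fermat.Agent.TWInst

open IsLocalRing Matrix Fermat.Agent.DefRing Fermat.Agent.GalRep Fermat.Agent.TWGal

local notation "Qbar" => AlgebraicClosure ℚ

section Tame

variable {R : Type} [CommRing R] [IsLocalRing R] {T : GQ →* Matrix (Fin 2) (Fin 2) R}
  {A : ValuationSubring Qbar} {p q : ℕ}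

/-- approximate generation of the image of inertia -/
theorem exists_inertia_approx (hT : MatCont T) (hq : q.Prime) (hA : A.LiesOverPrime q)
    (hp : p.Prime) (hpq : p ≠ q) (hpR : (p : R) ∈ maximalIdeal R)
    (hI : ∀ σ ∈ A.inertiaSubgroupIn ℚ, ∀ i j, (T σ - 1) i j ∈ maximalIdeal R)
    {σ₀ : GQ} (hσI : σ₀ ∈ A.inertiaSubgroupIn ℚ)
    (hσ₀ : ∀ π : Qbar, π ^ p = q → σ₀ π ≠ π) {σ : GQ} (hσ : σ ∈ A.inertiaSubgroupIn ℚ)
    (n : ℕ) :
    ∃ k : ℤ, ∀ i j, (T σ - T (σ₀ ^ k)) i j ∈ maximalIdeal R ^ n := by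
  obtain ⟨K, hK, hK2⟩ := quoRep_kernel hT n
  obtain ⟨k, hk⟩ := mem_zpowers_inertia hq hA hp hpq
    ((quoRep T n).comp (A.inertiaSubgroupIn ℚ).subtype) K (fun σ hσ => hK2 _ hσ)
    (fun σ => quoRep_p_power hpR (hI _ σ.2) n) (σ₀ := ⟨σ₀, hσI⟩) hσ₀ ⟨σ, hσ⟩
  refine ⟨k, ?_⟩
  have h1 : quoRep T n (σ₀ ^ k) = quoRep T n σ := by
    rw [map_zpow]
    exact hk
  have := congrArg Units.val h1
  rw [quoRep_val, quoRep_val, mapMatrix_eq_iff] at this
  intro i j
  have h2 := (maximalIdeal R ^ n).neg_mem (this i j)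
  rwa [Matrix.sub_apply, neg_sub] at h2

variable [IsHausdorff (maximalIdeal R) R]

theorem eq_zero_of_forall_mem_pow {x : R} (h : ∀ n : ℕ, x ∈ maximalIdeal R ^ n) : x = 0 := by
  refine IsHausdorff.haus (inferInstance : IsHausdorff (maximalIdeal R) R) _ fun n => ?_
  rw [SModEq.zero, smul_eq_mul, Ideal.mul_top]
  exact h n

/-- triviality on inertia is tested on one element -/
theorem eq_one_of_eq_one (hT : MatCont T) (hq : q.Prime) (hA : A.LiesOverPrime q)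
    (hp : p.Prime) (hpq : p ≠ q) (hpR : (p : R) ∈ maximalIdeal R)
    (hI : ∀ σ ∈ A.inertiaSubgroupIn ℚ, ∀ i j, (T σ - 1) i j ∈ maximalIdeal R)
    {σ₀ : GQ} (hσI : σ₀ ∈ A.inertiaSubgroupIn ℚ)
    (hσ₀ : ∀ π : Qbar, π ^ p = q → σ₀ π ≠ π) (h0 : T σ₀ = 1) {σ : GQ}
    (hσ : σ ∈ A.inertiaSubgroupIn ℚ) : T σ = 1 := by
  have hz : ∀ k : ℤ, T (σ₀ ^ k) = 1 := by
    intro k
    have h1 : σ₀ ^ k ∈ (T.toHomUnits).ker := by
      refine (T.toHomUnits).ker.zpow_mem ?_ k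
      rw [MonoidHom.mem_ker]
      apply Units.ext
      exact h0
    have h2 := congrArg Units.val (MonoidHom.mem_ker.mp h1)
    exact h2
  ext i j
  rw [← sub_eq_zero]
  refine eq_zero_of_forall_mem_pow fun n => ?_
  obtain ⟨k, hk⟩ := exists_inertia_approx hT hq hA hp hpq hpR hI hσI hσ₀ hσ n
  have h1 := hk i j
  rw [hz k, Matrix.sub_apply] at h1
  exact h1

omit [IsLocalRing R] [IsHausdorff (maximalIdeal R) R] in
/-- powers of a unipotent matrix -/
theorem zpow_unip {σ₀ : GQ} (hN : (T σ₀ - 1) * (T σ₀ - 1) = 0) (k : ℤ) :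
    T (σ₀ ^ k) = 1 + (k : Matrix (Fin 2) (Fin 2) R) * (T σ₀ - 1) := by
  have hnat : ∀ k : ℕ, T (σ₀ ^ k) = 1 + (k : Matrix (Fin 2) (Fin 2) R) * (T σ₀ - 1) := by
    intro k
    induction k with
    | zero => simp
    | succ k ih =>
      have h1 : T (σ₀ ^ (k + 1)) = T (σ₀ ^ k) * (1 + (T σ₀ - 1)) := by
        rw [pow_succ, map_mul, add_sub_cancel]
      rw [h1, ih, add_mul, mul_add, mul_add, mul_one, mul_one, one_mul, mul_assoc, hN, mul_zero,
        add_zero]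
      push_cast
      rw [add_mul, one_mul]
      abel
  rcases Int.eq_nat_or_neg k with ⟨m, rfl | rfl⟩
  · rw [zpow_natCast, hnat]
    push_cast
    rfl
  · have h1 : T (σ₀ ^ (m : ℕ)) * T (σ₀ ^ (-(m : ℤ))) = 1 := by
      rw [← map_mul, _root_.zpow_neg, zpow_natCast, mul_inv_cancel, map_one]
    have h2 : (1 + ((-(m : ℤ) : ℤ) : Matrix (Fin 2) (Fin 2) R) * (T σ₀ - 1)) * T (σ₀ ^ m) = 1 := by
      rw [hnat, mul_add, mul_one, add_mul, one_mul, mul_assoc, ← mul_assoc (T σ₀ - 1),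
        ← (Nat.cast_commute m (T σ₀ - 1)).eq, mul_assoc, hN, mul_zero, mul_zero, add_zero]
      push_cast
      rw [neg_mul, neg_add_cancel_right]
    have h3 := congrArg ((1 + ((-(m : ℤ) : ℤ) : Matrix (Fin 2) (Fin 2) R) * (T σ₀ - 1)) * ·) h1
    simp only [← mul_assoc] at h3
    rw [h2, one_mul, mul_one] at h3
    exact h3

omit [IsLocalRing R] [IsHausdorff (maximalIdeal R) R] in
theorem sq_zero_of_trace_two {M : Matrix (Fin 2) (Fin 2) R} (ht : M.trace = 2) (hd : M.det = 1) :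
    (M - 1) * (M - 1) = 0 := by
  rw [Matrix.trace_fin_two] at ht
  rw [Matrix.det_fin_two] at hd
  ext i j
  rw [Matrix.mul_apply, Fin.sum_univ_two]
  fin_cases i <;> fin_cases j <;>
    simp only [Fin.zero_eta, Fin.mk_one, Fin.isValue, Matrix.sub_apply, Matrix.one_apply_eq,
      ne_eq, zero_ne_one, one_ne_zero, not_false_eq_true, Matrix.one_apply_ne, sub_zero,
      Matrix.zero_apply]
  · linear_combination (-1 : R) * hd + M 0 0 * ht
  · linear_combination M 0 1 * ht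
  · linear_combination M 1 0 * ht
  · linear_combination (-1 : R) * hd + M 1 1 * ht

/-- trace two on inertia is tested on one element -/
theorem trace_eq_two_of (hT : MatCont T) (hq : q.Prime) (hA : A.LiesOverPrime q)
    (hp : p.Prime) (hpq : p ≠ q) (hpR : (p : R) ∈ maximalIdeal R)
    (hI : ∀ σ ∈ A.inertiaSubgroupIn ℚ, ∀ i j, (T σ - 1) i j ∈ maximalIdeal R)
    {σ₀ : GQ} (hσI : σ₀ ∈ A.inertiaSubgroupIn ℚ)
    (hσ₀ : ∀ π : Qbar, π ^ p = q → σ₀ π ≠ π) (h0 : (T σ₀).trace = 2) (h1 : (T σ₀).det = 1)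
    {σ : GQ} (hσ : σ ∈ A.inertiaSubgroupIn ℚ) : (T σ).trace = 2 := by
  have hN := sq_zero_of_trace_two h0 h1
  have hz : ∀ k : ℤ, (T (σ₀ ^ k)).trace = 2 := by
    intro k
    rw [zpow_unip hN, Matrix.trace_add, Matrix.trace_one, ← zsmul_eq_mul, Matrix.trace_smul,
      Matrix.trace_sub, h0, Matrix.trace_one]
    simp
  rw [← sub_eq_zero]
  refine eq_zero_of_forall_mem_pow fun n => ?_
  obtain ⟨k, hk⟩ := exists_inertia_approx hT hq hA hp hpq hpR hI hσI hσ₀ hσ n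
  have h1 : (T σ).trace - 2 = (T σ - T (σ₀ ^ k)).trace := by
    rw [Matrix.trace_sub, hz]
  rw [h1, Matrix.trace_fin_two]
  exact Ideal.add_mem _ (hk 0 0) (hk 1 1)

end Tame

section Places

variable {R : Type} [CommRing R] {T : GQ →* Matrix (Fin 2) (Fin 2) R}
  {A A' : ValuationSubring Qbar} {q : ℕ}

open scoped Pointwise

/-- elements of inertia groups at different places over `q` are conjugate -/
theorem exists_conj_inertia (hq : q.Prime) (hA : A.LiesOverPrime q) (hA' : A'.LiesOverPrime q)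
    {σ : GQ} (hσ : σ ∈ A'.inertiaSubgroupIn ℚ) :
    ∃ g : GQ, g * σ * g⁻¹ ∈ A.inertiaSubgroupIn ℚ := by
  obtain ⟨g, hg⟩ := Frob.exists_eq_smul_Qbar A' A hq hA' hA
  refine ⟨g, ?_⟩
  have h := Mink.conj_mem_inertia A' g σ hσ
  rwa [← hg] at h

theorem trace_conj (g σ : GQ) : (T (g * σ * g⁻¹)).trace = (T σ).trace := by
  rw [map_mul, map_mul, Matrix.trace_mul_comm, ← mul_assoc, ← map_mul, inv_mul_cancel, map_one,
    one_mul]

theorem trace_all_places (hq : q.Prime) (hA : A.LiesOverPrime q) {c : R}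
    (h : ∀ σ ∈ A.inertiaSubgroupIn ℚ, (T σ).trace = c) (hA' : A'.LiesOverPrime q)
    {σ : GQ} (hσ : σ ∈ A'.inertiaSubgroupIn ℚ) : (T σ).trace = c := by
  obtain ⟨g, hg⟩ := exists_conj_inertia hq hA hA' hσ
  rw [← trace_conj g]
  exact h _ hg

theorem one_all_places (hq : q.Prime) (hA : A.LiesOverPrime q)
    (h : ∀ σ ∈ A.inertiaSubgroupIn ℚ, T σ = 1) (hA' : A'.LiesOverPrime q)
    {σ : GQ} (hσ : σ ∈ A'.inertiaSubgroupIn ℚ) : T σ = 1 := by
  obtain ⟨g, hg⟩ := exists_conj_inertia hq hA hA' hσ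
  have h1 := h _ hg
  have h2 : T σ = T g⁻¹ * T (g * σ * g⁻¹) * T g := by
    rw [← map_mul, ← map_mul]
    congr 1
    group
  rw [h2, h1, mul_one, ← map_mul, inv_mul_cancel, map_one]

end Places

end Fermat.Agent.TWInst
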