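import Fermat.Agent.TWInst.Sel
import Fermat.Agent.TWInst.Tame
import Fermat.Agent.TWGal.Gens
import Fermat.Agent.TWGal.BLR
import Fermat.Agent.FlatHopf.S32Core

/-!
# Lemmas on the cocycles attached to derivations
-/

set_option autoImplicit false
set_option maxHeartbeats 400000

noncomputable section

namespace Fermat.Agent.TWInst

open IsLocalRing Matrix Fermat.Agent.DefRing Fermat.Agent.GalRep Fermat.Agent.TWGal
  Fermat.Agent.TWPatch

local notation "Qbar" => AlgebraicClosure ℚ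

section Approx

variable (p : ℕ) [Fact p.Prime] {R : Type} [CommRing R] (I : Ideal R) [IsAdicComplete I R]

/-- elements of the image of `ℤ_p` are approximated by integers -/
theorem exists_nat_approx (hpR : (p : R) ∈ I) (x : ℤ_[p]) (n : ℕ) :
    ∃ m : ℕ, padicTo p I hpR x - m ∈ I ^ n := by
  haveI : NeZero (p ^ n) := ⟨pow_ne_zero _ (Fact.out : p.Prime).ne_zero⟩
  refine ⟨(PadicInt.toZModPow n x).val, ?_⟩
  rw [← Ideal.Quotient.eq_zero_iff_mem, map_sub, mk_padicTo, map_natCast, sub_eq_zero]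
  conv_lhs => rw [← ZMod.natCast_zmod_val (PadicInt.toZModPow n x)]
  rw [map_natCast]

end Approx

section Coc

variable {O : Type} [CommRing O] [IsLocalRing O] {R : Type} [CommRing R] [IsLocalRing R]
  [Algebra O R] {κ : R →ₐ[O] ResidueField O} {J : Set R} {ℓ : R → ResidueField O}
  {T : GQ →* Matrix (Fin 2) (Fin 2) R} {ρb : GQ →* Matrix (Fin 2) (Fin 2) (ResidueField O)}

theorem trace_coc' (hρ : ∀ g, (T g).map κ = ρb g) (h : ℓ ∈ Der κ J) {g : GQ}
    (h1 : ℓ (T g).det = 0) : (coc T ρb ℓ g).trace = 0 := by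
  have h2 : (ρb g).det * (coc T ρb ℓ g).trace = ℓ (T g).det := by
    have h3 := coc_mul_rho hρ ℓ g
    have h5 : ∀ i j, ℓ (T g i j) = coc T ρb ℓ g i 0 * ρb g 0 j + coc T ρb ℓ g i 1 * ρb g 1 j := by
      intro i j
      have := congrFun (congrFun h3 i) j
      rw [Matrix.mul_apply, Fin.sum_univ_two, Matrix.map_apply] at this
      exact this.symm
    have h6 : ∀ i j, κ (T g i j) = ρb g i j := fun i j => by rw [← hρ, Matrix.map_apply]
    rw [Matrix.det_fin_two (T g), Der.sub h, Der.mul h, Der.mul h, Matrix.trace_fin_two,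
      Matrix.det_fin_two]
    simp only [h5, h6]
    ring
  have h3 : (ρb g).det ≠ 0 := by
    intro h0
    have h4 : (ρb g * ρb g⁻¹).det = 1 := by rw [← map_mul, mul_inv_cancel, map_one, Matrix.det_one]
    rw [Matrix.det_mul, h0, zero_mul] at h4
    exact zero_ne_one h4
  rw [h1] at h2
  exact (mul_eq_zero.mp h2).resolve_left h3

theorem der_of_sub_nat (h : ℓ ∈ Der κ J) {x : R} {m : ℕ} (hx : x - m ∈ maximalIdeal R ^ 2) :
    ℓ x = 0 := by
  have h1 := Der.sq h (a := x - m) (by rw [ker_kappa κ]; exact hx)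
  rwa [Der.sub h, Der.natCast h, sub_zero] at h1

theorem coc_of_one (hρ : ∀ g, (T g).map κ = ρb g) (h : ℓ ∈ Der κ J) {g : GQ}
    (h1 : T g = 1) : coc T ρb ℓ g = 0 := by
  rw [coc_eq_zero_iff hρ, h1]
  intro i j
  rw [Matrix.one_apply]
  split_ifs
  · exact Der.one h
  · exact Der.zero h

theorem isCock_coc (hρ : ∀ g, (T g).map κ = ρb g) (h : ℓ ∈ Der κ J) :
    FlatLoc.IsCock ρb (coc T ρb ℓ) := fun σ τ => coc_mul hρ h σ τ

/-- **flatness of the extension attached to a derivation** -/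
theorem flat_coc [Finite (ResidueField O)] {p : ℕ} (hρ : ∀ g, (T g).map κ = ρb g)
    (h : ℓ ∈ Der κ J)
    (hfl : FlatLoc.IsFlatMod (FlatLoc.Zloc p) (vecRep (mapT (dualHom h : R →+* Dk O) T))) :
    FlatLoc.IsFlatMod (FlatLoc.Zloc p) (FlatLoc.ext2 ρb (coc T ρb ℓ) (isCock_coc hρ h)) := by
  let e : (Fin 2 → Dk O) ≃+ (Fin 2 → ResidueField O) × (Fin 2 → ResidueField O) :=
    { toFun := fun v => (fun i => TrivSqZeroExt.fst (v i), fun i => TrivSqZeroExt.snd (v i))
      invFun := fun w i => ((w.1 i, w.2 i) : ResidueField O × ResidueField O)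
      left_inv := fun v => rfl
      right_inv := fun w => rfl
      map_add' := fun v w => rfl }
  refine hfl.of_equiv e fun σ v => ?_
  have hmul : ∀ a b : Dk O, TrivSqZeroExt.fst (a * b) = TrivSqZeroExt.fst a * TrivSqZeroExt.fst b ∧
      TrivSqZeroExt.snd (a * b) = TrivSqZeroExt.fst a * TrivSqZeroExt.snd b +
        TrivSqZeroExt.snd a * TrivSqZeroExt.fst b := by
    intro a b
    refine ⟨rfl, ?_⟩
    have h3 : TrivSqZeroExt.snd (a * b) = TrivSqZeroExt.fst a • TrivSqZeroExt.snd b +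
      MulOpposite.op (TrivSqZeroExt.fst b) • TrivSqZeroExt.snd a := rfl
    refine h3.trans ?_
    rw [smul_eq_mul, op_smul_eq_mul]
  have h1 : ∀ i j, TrivSqZeroExt.fst (mapT (dualHom h : R →+* Dk O) T σ i j) = ρb σ i j := by
    intro i j
    rw [← hρ σ]
    rfl
  have h2 : ∀ i j, TrivSqZeroExt.snd (mapT (dualHom h : R →+* Dk O) T σ i j) =
      (coc T ρb ℓ σ * ρb σ) i j := by
    intro i j
    rw [coc_mul_rho hρ]
    rfl
  have hadd1 : ∀ a b : Dk O, TrivSqZeroExt.fst (a + b) =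
    TrivSqZeroExt.fst a + TrivSqZeroExt.fst b := fun a b => rfl
  have hadd2 : ∀ a b : Dk O, TrivSqZeroExt.snd (a + b) =
    TrivSqZeroExt.snd a + TrivSqZeroExt.snd b := fun a b => rfl
  have hv : ∀ i, (vecRep (mapT (dualHom h : R →+* Dk O) T) σ v) i =
      mapT (dualHom h : R →+* Dk O) T σ i 0 * v 0 + mapT (dualHom h : R →+* Dk O) T σ i 1 * v 1 := by
    intro i
    change ((mapT (dualHom h : R →+* Dk O) T σ).mulVec v) i = _
    rw [Matrix.mulVec, dotProduct, Fin.sum_univ_two]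
  refine Prod.ext ?_ ?_
  · funext i
    change TrivSqZeroExt.fst ((vecRep (mapT (dualHom h : R →+* Dk O) T) σ v) i) =
      ((ρb σ).mulVec fun i => TrivSqZeroExt.fst (v i)) i
    rw [hv, hadd1, (hmul _ _).1, (hmul _ _).1, h1, h1, Matrix.mulVec, dotProduct, Fin.sum_univ_two]
  · funext i
    change TrivSqZeroExt.snd ((vecRep (mapT (dualHom h : R →+* Dk O) T) σ v) i) =
      ((coc T ρb ℓ σ * ρb σ).mulVec fun i => TrivSqZeroExt.fst (v i)) i +
        ((ρb σ).mulVec fun i => TrivSqZeroExt.snd (v i)) i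
    rw [hv, hadd2, (hmul _ _).2, (hmul _ _).2, h1, h1, h2, h2, Matrix.mulVec, dotProduct,
      Fin.sum_univ_two, Matrix.mulVec, dotProduct, Fin.sum_univ_two]
    ring

end Coc

section Scalar

variable {k : Type} [Field k] {ρb : GQ →* Matrix (Fin 2) (Fin 2) k}
  {c : GQ → Matrix (Fin 2) (Fin 2) k}

/-- vanishing of cocycles on conjugates with scalar image -/
theorem coc_conj_zero (hc : FlatLoc.IsCock ρb c) {g σ : GQ} (h0 : c σ = 0) {a : k}
    (ha : ρb σ = a • (1 : Matrix (Fin 2) (Fin 2) k)) : c (g * σ * g⁻¹) = 0 := by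
  have hinv : ∀ x, ρb x * ρb x⁻¹ = 1 := fun x => by rw [← map_mul, mul_inv_cancel, map_one]
  have hinv' : ∀ x, ρb x⁻¹ * ρb x = 1 := fun x => by rw [← map_mul, inv_mul_cancel, map_one]
  have h1 : c (g * g⁻¹) = 0 := by rw [mul_inv_cancel]; exact hc.one
  rw [hc] at h1
  have hσi : ρb σ * (ρb g⁻¹ * c g * ρb g) * ρb σ⁻¹ = ρb g⁻¹ * c g * ρb g := by
    have h2 : ρb σ * (ρb g⁻¹ * c g * ρb g) = (ρb g⁻¹ * c g * ρb g) * ρb σ := by
      rw [ha, Matrix.smul_mul, Matrix.mul_smul, one_mul, mul_one]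
    rw [h2, mul_assoc, hinv, mul_one]
  have h3 : c g⁻¹ = -(ρb g⁻¹ * c g * ρb g) := by
    have h4 : ρb g * c g⁻¹ * ρb g⁻¹ = - c g := (neg_eq_of_add_eq_zero_right h1).symm
    have h5 : ρb g⁻¹ * (ρb g * c g⁻¹ * ρb g⁻¹) * ρb g = c g⁻¹ := by
      rw [mul_assoc (ρb g), ← mul_assoc (ρb g⁻¹), hinv', one_mul, mul_assoc, hinv', mul_one]
    rw [← h5, h4, mul_neg, neg_mul]
  rw [hc, hc, h0, mul_zero, zero_mul, add_zero, h3, map_mul, _root_.mul_inv_rev, map_mul]
  have h6 : ρb g * ρb σ * -(ρb g⁻¹ * c g * ρb g) * (ρb σ⁻¹ * ρb g⁻¹) =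
      - (ρb g * (ρb σ * (ρb g⁻¹ * c g * ρb g) * ρb σ⁻¹) * ρb g⁻¹) := by
    rw [mul_neg, neg_mul]
    simp only [mul_assoc]
  rw [h6, hσi]
  have h7 : ρb g * (ρb g⁻¹ * c g * ρb g) * ρb g⁻¹ = c g := by
    rw [mul_assoc (ρb g⁻¹), ← mul_assoc (ρb g), hinv, one_mul, mul_assoc, hinv, mul_one]
  rw [h7, add_neg_cancel]

end Scalar

end Fermat.Agent.TWInst
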