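import Fermat.Agent.TWInst.Lv
import Fermat.Agent.TWInst.Tame
import Fermat.Agent.CarayolX.Main
import Fermat.Agent.SSMod.JL
import Fermat.Agent.SSMod.S34Core
import Fermat.Agent.S43Glue.Point

/-!
# Points and newforms: the trace of inertia
-/

set_option autoImplicit false
set_option maxHeartbeats 400000

noncomputable section

namespace Fermat.Agent.TWInst

open IsLocalRing Matrix Fermat.Agent.DefRing Fermat.Agent.GalRep Fermat.Agent.TWPatch
  Fermat.Agent.TWLoc Fermat.Agent.TWGal CuspForm Fermat.Agent.AnJac Fermat.Agent.HeckeQ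
  CongruenceSubgroup ModularFormClass
open Fermat.Agent.TWCoh hiding GQ

local notation "Qbar" => AlgebraicClosure ℚ

section Iota

variable {M : ℕ} [NeZero M] {S : Set ℕ} {g : CuspForm (Gamma0 M) 2}
  {R : Type} [CommRing R] (w : R →+* ℂ) (t : PS S → R)

/-- the coefficient homomorphism of a newform, with values in a quotient of `R` -/
theorem exists_iota (hg : g.IsNewform) (hMS : ∀ q : ℕ, q.Prime → q ∣ M → q ∈ S)
    (ht : ∀ l : PS S, qCoeff g l.1 = w (t l)) :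
    ∃ (chig : heckeAlgebra M 2 S →+* ℂ) (iota : chig.range →+* R ⧸ RingHom.ker w),
      (∀ (ℓ : ℕ) (hℓ : ℓ.Prime) (hℓM : ¬ ℓ ∣ M) (hℓS : ℓ ∉ S),
        chig (heckeAlgebra.T hℓ hℓM hℓS) = qCoeff g ℓ) ∧
      (∀ (ℓ : ℕ) (hℓ : ℓ.Prime) (hℓM : ¬ ℓ ∣ M) (hℓS : ℓ ∉ S),
        (iota.comp chig.rangeRestrict) (heckeAlgebra.T hℓ hℓM hℓS) =
          Ideal.Quotient.mk _ (t ⟨ℓ, hℓ, hℓS⟩)) := by
  let chig : heckeAlgebra M 2 S →+* ℂ := (eigHom hg.1).comp
    (Subalgebra.inclusion (heckeAlgebra_mono (Set.empty_subset S))).toRingHom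
  have hchig : ∀ (ℓ : ℕ) (hℓ : ℓ.Prime) (hℓM : ¬ ℓ ∣ M) (hℓS : ℓ ∉ S),
      chig (heckeAlgebra.T hℓ hℓM hℓS) = qCoeff g ℓ := by
    intro ℓ hℓ hℓM hℓS
    exact eigChar_T hg.1 hℓ hℓM
  have hrange : ∀ x : heckeAlgebra M 2 S, chig x ∈ w.range := by
    rintro ⟨x, hx⟩
    refine Algebra.adjoin_induction (p := fun x hx => chig ⟨x, hx⟩ ∈ w.range) ?_ ?_ ?_ ?_ hx
    · rintro x (⟨ℓ, hℓ, hℓN, hℓS, rfl⟩ | ⟨q, hqN, hq, hqS, rfl⟩)
      · have h1 := hchig ℓ hℓ hℓN hℓS
        exact ⟨t ⟨ℓ, hℓ, hℓS⟩, by rw [← ht ⟨ℓ, hℓ, hℓS⟩]; exact h1.symm⟩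
      · exact absurd (hMS q hq hqN) hqS
    · intro r
      have h1 : chig (algebraMap ℤ (heckeAlgebra M 2 S) r) ∈ w.range := by
        rw [eq_intCast, map_intCast]
        exact ⟨(r : R), map_intCast _ _⟩
      exact h1
    · intro y z hy hz h1 h2
      have h3 : chig (⟨y, hy⟩ + ⟨z, hz⟩) ∈ w.range := by
        rw [map_add]; exact w.range.add_mem h1 h2
      exact h3
    · intro y z hy hz h1 h2
      have h3 : chig (⟨y, hy⟩ * ⟨z, hz⟩) ∈ w.range := by
        rw [map_mul]; exact w.range.mul_mem h1 h2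
      exact h3
  have hle : chig.range ≤ w.range := by
    rintro _ ⟨x, rfl⟩
    exact hrange x
  let e := RingHom.quotientKerEquivRange w
  refine ⟨chig, (e.symm : w.range →+* R ⧸ RingHom.ker w).comp (Subring.inclusion hle), hchig, ?_⟩
  intro ℓ hℓ hℓM hℓS
  have h1 : e (Ideal.Quotient.mk _ (t ⟨ℓ, hℓ, hℓS⟩)) =
      Subring.inclusion hle (chig.rangeRestrict (heckeAlgebra.T hℓ hℓM hℓS)) := by
    apply Subtype.ext
    show w (t ⟨ℓ, hℓ, hℓS⟩) = chig (heckeAlgebra.T hℓ hℓM hℓS)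
    rw [hchig, ht ⟨ℓ, hℓ, hℓS⟩]
  show e.symm (Subring.inclusion hle (chig.rangeRestrict (heckeAlgebra.T hℓ hℓM hℓS))) = _
  rw [← h1, RingEquiv.symm_apply_apply]

end Iota

section Newform

variable {R : Type} [CommRing R] [CNL R] {S : Set ℕ} {p : ℕ} [hpf : Fact p.Prime]
  {T : GQ →* Matrix (Fin 2) (Fin 2) R} {t : PS S → R}
  {M : ℕ} [NeZero M] {g : CuspForm (Gamma0 M) 2} (w : R →+* ℂ)

theorem quot_cnl : CNL (R ⧸ RingHom.ker w) := CNL.quotient (RingHom.ker_ne_top w)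

theorem quot_charZero : CharZero (R ⧸ RingHom.ker w) := by
  have h1 := RingHom.kerLift_injective w
  constructor
  intro a b hab
  have h2 := congrArg (RingHom.kerLift w) hab
  rw [map_natCast, map_natCast] at h2
  exact_mod_cast h2

theorem mk_mem_max (x : R) (hx : x ∈ maximalIdeal R) : haveI := quot_cnl w
    Ideal.Quotient.mk (RingHom.ker w) x ∈ maximalIdeal (R ⧸ RingHom.ker w) := by
  haveI := quot_cnl w
  haveI : IsLocalHom (Ideal.Quotient.mk (RingHom.ker w)) :=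
    IsLocalHom.of_surjective _ Ideal.Quotient.mk_surjective
  exact (IsLocalRing.mem_maximalIdeal _).mpr fun h => hx (isUnit_of_map_unit _ x h)

theorem w_eq_iff (x y : R) : w x = w y ↔
    Ideal.Quotient.mk (RingHom.ker w) x = Ideal.Quotient.mk (RingHom.ker w) y := by
  rw [Ideal.Quotient.mk_eq_mk_iff_sub_mem, RingHom.mem_ker, map_sub, sub_eq_zero]

/-- the Frobenius condition for the representation over the quotient -/
theorem frobCond_quot
    (hfr : ∀ l : PS S, ∀ A : ValuationSubring Qbar, A.LiesOverPrime l.1 → ∀ τ : GQ,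
      A.IsFrobeniusAt τ l.1 → (T τ).trace = t l ∧ (T τ).det = (l.1 : R))
    {pi : (hdata M p (esHyp M p)).TT S →+* R ⧸ RingHom.ker w}
    (hpi : ∀ (ℓ : ℕ) (hℓ : ℓ.Prime) (hℓM : ¬ ℓ ∣ M * p) (hℓS : ℓ ∉ S),
      pi ⟨(hdata M p (esHyp M p)).T ℓ, HData.T_mem hℓ hℓM hℓS⟩ =
        Ideal.Quotient.mk _ (t ⟨ℓ, hℓ, hℓS⟩)) :
    HData.FrobCond pi (mapT (Ideal.Quotient.mk (RingHom.ker w)) T) := by
  intro ℓ hℓ hℓM hℓS A hA τ hτ
  obtain ⟨e1, e2⟩ := hfr ⟨ℓ, hℓ, hℓS⟩ A hA τ hτ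
  refine ⟨?_, ?_⟩
  · rw [hpi ℓ hℓ hℓM hℓS, ← e1, Matrix.trace_fin_two, Matrix.trace_fin_two, map_add]
    rfl
  · change ((Ideal.Quotient.mk (RingHom.ker w)).mapMatrix (T τ)).det = _
    rw [← RingHom.map_det, e2, map_natCast]

/-- inertia at a prime `q` with `q² ∤ M` has trace two -/
theorem trace_eq_two_of_newform (hS : S.Finite) (hp : (p : R) ∈ maximalIdeal R) (hT : MatCont T)
    (hfr : ∀ l : PS S, ∀ A : ValuationSubring Qbar, A.LiesOverPrime l.1 → ∀ τ : GQ,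
      A.IsFrobeniusAt τ l.1 → (T τ).trace = t l ∧ (T τ).det = (l.1 : R))
    (hg : g.IsNewform) (hMS : ∀ q : ℕ, q.Prime → q ∣ M → q ∈ S)
    (ht : ∀ l : PS S, qCoeff g l.1 = w (t l)) {q : ℕ} (hq : q.Prime) (hqp : q ≠ p)
    (hq2 : ¬ q ^ 2 ∣ M) {A : ValuationSubring Qbar} (hA : A.LiesOverPrime q) {σ : GQ}
    (hσ : σ ∈ A.inertiaSubgroupIn ℚ) : w (T σ).trace = 2 := by
  haveI := quot_cnl w
  obtain ⟨chig, iota, h1, h2⟩ := exists_iota w t hg hMS ht
  have hfc := frobCond_quot (p := p) w hfr (pi := piH (p := p) (iota.comp chig.rangeRestrict))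
    (fun ℓ hℓ hℓM hℓS => by
      rw [piH_T _ hℓ hℓM hℓS]
      exact h2 ℓ hℓ _ hℓS)
  have hpB : (p : R ⧸ RingHom.ker w) ∈ maximalIdeal (R ⧸ RingHom.ker w) := by
    have := mk_mem_max w _ hp
    rwa [map_natCast] at this
  haveI : IsLocalHom (Ideal.Quotient.mk (RingHom.ker w)) :=
    IsLocalHom.of_surjective _ Ideal.Quotient.mk_surjective
  have hTB : MatCont (mapT (Ideal.Quotient.mk (RingHom.ker w)) T) := hT.map _ inferInstance
  have key : (mapT (Ideal.Quotient.mk (RingHom.ker w)) T σ).trace = 2 := by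
    by_cases hqM : q ∣ M
    · have hc : cycP p σ = 1 := cycP_inertia p hq hA hqp hσ
      have hth : (hdata M p (esHyp M p)).th σ = castHom _ ℤ_[p]
          ((2 : (hdata M p (esHyp M p)).TT S) : Matrix _ _ ℤ) :=
        SSMod.th_of_unip hc (SSMod.rho_inertia_unip SSMod.jl23 hq hqM hq2 hqp hA hσ)
      have htr := SSMod.trace_of_th hS (NeZero.ne M) hpB hTB hfc hth
      rwa [map_ofNat] at htr
    · have hqMp : ¬ q ∣ M * p := fun h => by
        rcases hq.dvd_mul.mp h with h | h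
        · exact hqM h
        · exact hqp ((Nat.prime_dvd_prime_iff_eq hq hpf.out).mp h)
      have h3 := HData.trace_mul_inertia hS (NeZero.ne M) hpB hTB hfc hq hqMp hA hσ 1
      rw [one_mul, map_one] at h3
      rw [h3, Matrix.trace_one]
      simp
  have h4 : Ideal.Quotient.mk (RingHom.ker w) (T σ).trace =
      Ideal.Quotient.mk (RingHom.ker w) 2 := by
    rw [map_ofNat, ← key, Matrix.trace_fin_two, Matrix.trace_fin_two, map_add]
    rfl
  rw [← w_eq_iff, map_ofNat] at h4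
  exact h4

/-- **Carayol**: inertia at a prime `q` with `q² ∥ M` is not unipotent -/
theorem not_unip_of_newform (HC : Carayol.CarayolCore) (hS : S.Finite)
    (hp : (p : R) ∈ maximalIdeal R)
    (hT : MatCont T)
    (hfr : ∀ l : PS S, ∀ A : ValuationSubring Qbar, A.LiesOverPrime l.1 → ∀ τ : GQ,
      A.IsFrobeniusAt τ l.1 → (T τ).trace = t l ∧ (T τ).det = (l.1 : R))
    (hg : g.IsNewform) (hMS : ∀ q : ℕ, q.Prime → q ∣ M → q ∈ S)
    (ht : ∀ l : PS S, qCoeff g l.1 = w (t l)) {q : ℕ} (hq : q.Prime) (hqp : q ≠ p)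
    (hf : M.factorization q = 2) {A : ValuationSubring Qbar} (hA : A.LiesOverPrime q)
    (hu : ∀ σ ∈ A.inertiaSubgroupIn ℚ, w (T σ).trace = 2) : False := by
  obtain ⟨S', rfl⟩ : ∃ S' : Finset ℕ, (↑S' : Set ℕ) = S := ⟨hS.toFinset, hS.coe_toFinset⟩
  haveI := quot_cnl w
  haveI := quot_charZero w
  haveI : IsDomain (R ⧸ RingHom.ker w) := by
    haveI : (RingHom.ker w).IsPrime := RingHom.ker_isPrime w
    infer_instance
  obtain ⟨chig, iota, h1, h2⟩ := exists_iota w t hg hMS ht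
  have hfc := frobCond_quot (p := p) w hfr (pi := piH (p := p) (iota.comp chig.rangeRestrict))
    (fun ℓ hℓ hℓM hℓS => by
      rw [piH_T _ hℓ hℓM hℓS]
      exact h2 ℓ hℓ _ hℓS)
  have hpB : (p : R ⧸ RingHom.ker w) ∈ maximalIdeal (R ⧸ RingHom.ker w) := by
    have := mk_mem_max w _ hp
    rwa [map_natCast] at this
  haveI : IsLocalHom (Ideal.Quotient.mk (RingHom.ker w)) :=
    IsLocalHom.of_surjective _ Ideal.Quotient.mk_surjective
  have hTB : MatCont (mapT (Ideal.Quotient.mk (RingHom.ker w)) T) := hT.map _ inferInstance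
  refine CarayolX.not_unipotent HC hg S' hpB chig h1 iota hTB hfc hq hqp hf hA fun σ hσ => ?_
  have h3 := hu σ hσ
  have h4 : w (T σ).trace = w 2 := by rw [h3, map_ofNat]
  rw [w_eq_iff, map_ofNat] at h4
  rw [← h4, Matrix.trace_fin_two, Matrix.trace_fin_two, map_add]
  rfl

/-- **Carayol**, version with one element of inertia -/
theorem not_unip_of_newform' (HC : Carayol.CarayolCore) (hS : S.Finite)
    (hp : (p : R) ∈ maximalIdeal R)
    (hT : MatCont T)
    (hfr : ∀ l : PS S, ∀ A : ValuationSubring Qbar, A.LiesOverPrime l.1 → ∀ τ : GQ,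
      A.IsFrobeniusAt τ l.1 → (T τ).trace = t l ∧ (T τ).det = (l.1 : R))
    (hg : g.IsNewform) (hMS : ∀ q : ℕ, q.Prime → q ∣ M → q ∈ S)
    (ht : ∀ l : PS S, qCoeff g l.1 = w (t l)) {q : ℕ} (hq : q.Prime) (hqp : q ≠ p)
    (hf : M.factorization q = 2) {A : ValuationSubring Qbar} (hA : A.LiesOverPrime q)
    (hI : ∀ σ ∈ A.inertiaSubgroupIn ℚ, ∀ a b, (T σ - 1) a b ∈ maximalIdeal R)
    {σ₀ : GQ} (hσI : σ₀ ∈ A.inertiaSubgroupIn ℚ)
    (hσ₀ : ∀ π : Qbar, π ^ p = q → σ₀ π ≠ π) (hdet : (T σ₀).det = 1)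
    (hu : w (T σ₀).trace = 2) : False := by
  refine not_unip_of_newform w HC hS hp hT hfr hg hMS ht hq hqp hf hA fun σ hσ => ?_
  have hw : w (T σ₀).trace = w 2 := by rw [hu, map_ofNat]
  rw [w_eq_iff, map_ofNat] at hw
  haveI := quot_cnl w
  haveI : IsLocalHom (Ideal.Quotient.mk (RingHom.ker w)) :=
    IsLocalHom.of_surjective _ Ideal.Quotient.mk_surjective
  have hTB : MatCont (mapT (Ideal.Quotient.mk (RingHom.ker w)) T) := hT.map _ inferInstance
  have hpB : (p : R ⧸ RingHom.ker w) ∈ maximalIdeal (R ⧸ RingHom.ker w) := by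
    have := mk_mem_max w _ hp
    rwa [map_natCast] at this
  have htrB : ∀ x, (mapT (Ideal.Quotient.mk (RingHom.ker w)) T x).trace =
      Ideal.Quotient.mk _ (T x).trace := fun x => by
    rw [Matrix.trace_fin_two, Matrix.trace_fin_two, map_add]
    rfl
  have h3 := trace_eq_two_of hTB hq hA hpf.out hqp.symm hpB
    (fun σ hσ a b => by
      have h4 := mk_mem_max w _ (hI σ hσ a b)
      rw [Matrix.sub_apply, map_sub] at h4
      rw [Matrix.sub_apply]
      have h5 : Ideal.Quotient.mk (RingHom.ker w)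
          ((1 : Matrix (Fin 2) (Fin 2) R) a b) = (1 : Matrix (Fin 2) (Fin 2) _) a b := by
        rw [Matrix.one_apply, Matrix.one_apply]
        split_ifs
        · exact map_one _
        · exact map_zero _
      rw [h5] at h4
      exact h4)
    hσI hσ₀ (by rw [htrB]; exact hw) (by
      change ((Ideal.Quotient.mk (RingHom.ker w)).mapMatrix (T σ₀)).det = _
      rw [← RingHom.map_det, hdet, map_one]) hσ
  rw [htrB] at h3
  have h4 : w (T σ).trace = w 2 := by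
    rw [w_eq_iff, map_ofNat]
    exact h3
  rw [h4, map_ofNat]

end Newform

end Fermat.Agent.TWInst
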