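import Fermat.Agent.TWInst.Zero

/-!
# The representations
-/

set_option autoImplicit false
set_option maxHeartbeats 400000

noncomputable section

namespace Fermat.Agent.TWInst

open IsLocalRing Matrix Fermat.Agent.DefRing Fermat.Agent.GalRep Fermat.Agent.TWPatch
  Fermat.Agent.TWLoc Fermat.Agent.TWGal CuspForm Fermat.Agent.AnJac Fermat.Agent.HeckeQ
open Fermat.Agent.TWCoh hiding GQ

local notation "Qbar" => AlgebraicClosure ℚ

attribute [local instance] algDk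

variable {p : ℕ} [hpf : Fact p.Prime] {O : Type} [CommRing O] [CNL O] {G : Glob p O}
  [Nontrivial (M0 O G.N G.τ)] [CNL G.R₀]

theorem Glob.hpR₀ : (p : G.R₀) ∈ maximalIdeal G.R₀ := by
  rw [← ker_kappa G.κ₀, RingHom.mem_ker, map_natCast]
  exact G.pk

variable (G) in
/-- the representation at level zero -/
structure Rep0 where
  T : GQ →* Matrix (Fin 2) (Fin 2) G.R₀
  cont : MatCont T
  frob : ∀ l : PS G.S, ∀ A : ValuationSubring Qbar, A.LiesOverPrime l.1 → ∀ τ : GQ,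
    A.IsFrobeniusAt τ l.1 → (T τ).trace = T0.T (Set.Subset.refl G.S) l ∧ (T τ).det = (l.1 : G.R₀)
  det : ∀ g, (T g).det = cyc p (maximalIdeal G.R₀) Glob.hpR₀ g
  res : ∀ g, (T g).map G.κ₀ = G.ρb g
  span : Submodule.span G.R₀ (Set.range T) = ⊤
  unram : ∀ q : ℕ, q.Prime → ¬ q ∣ G.N * p → ∀ A : ValuationSubring Qbar, A.LiesOverPrime q →
        ∀ σ ∈ A.inertiaSubgroupIn ℚ, T σ = 1

theorem exists_Rep0 (x₀ : heckeAlgebra G.N 2 G.S →+* G.R₀)
    (hx₀ : ∀ l : PS G.S, x₀ (gT G.not_dvd_N l) = T0.T (Set.Subset.refl G.S) l) :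
    Nonempty (Rep0 G) := by
  obtain ⟨T, h1, h2, h3, h4, h5, h6, h7⟩ := exists_rep_hecke (N := G.N) (p := p) G.hS G.hp2
    (Glob.hpR₀ (G := G)) x₀ (G.κ₀ : G.R₀ →+* ResidueField O) (kappa_surjective G.κ₀)
    (ρb := G.ρb) G.cont (fun ℓ hℓ hℓN hℓp hℓS A hA τ hτ => by
      obtain ⟨e1, e2⟩ := G.frob ℓ hℓ hℓN hℓS A hA τ hτ
      refine ⟨?_, e2⟩
      rw [e1]
      have h1 := hx₀ ⟨ℓ, hℓ, hℓS⟩
      have h2 := G.κ₀_T ⟨ℓ, hℓ, hℓS⟩
      rw [← h1] at h2
      exact h2.symm) G.span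
  refine ⟨⟨T, h1, fun l A hA τ hτ => ?_, h3, h4, h5, h7⟩⟩
  have hlp : ¬ l.1 ∣ G.N * p := fun h => by
    rcases l.2.1.dvd_mul.mp h with h | h
    · exact G.not_dvd_N l h
    · exact l.2.2 (by rw [(Nat.prime_dvd_prime_iff_eq l.2.1 hpf.out).mp h]; exact G.hpS)
  obtain ⟨e1, e2⟩ := h2 l.1 l.2.1 hlp l.2.2 A hA τ hτ
  refine ⟨?_, e2⟩
  rw [e1, piH_T _ l.2.1 hlp l.2.2]
  exact hx₀ l

variable {r n : ℕ} (L : LevD G r n) (ρ₀ : Rep0 G)

attribute [local instance] LevD.cnl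

instance isLocalHom_bt : IsLocalHom (L.bt : L.R →+* G.R₀) := by
  constructor
  intro x hx
  have h1 : IsUnit (L.κ x) := by
    rw [← L.κ₀_bt]
    exact hx.map (G.κ₀ : G.R₀ →+* ResidueField O)
  by_contra h2
  have h3 : x ∈ maximalIdeal L.R := h2
  rw [← ker_kappa L.κ, RingHom.mem_ker] at h3
  rw [h3] at h1
  exact not_isUnit_zero h1

variable {L} in
theorem bt_surjective_of (H : ∀ l : PS G.S, ∃ x, L.bt x = T0.T (Set.Subset.refl G.S) l) :
    Function.Surjective L.bt := by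
  have h1 : (⊤ : Subalgebra O G.R₀) ≤ L.bt.range := by
    rw [← G.adjoin₀, Algebra.adjoin_le_iff]
    rintro _ ⟨l, rfl⟩
    exact H l
  intro x
  exact h1 (show x ∈ ⊤ from trivial)

variable {L ρ₀} in
/-- the representation at level `n` -/
structure RepN (g : heckeAlgebra L.NN 2 (bad L.Q) →+* L.R) where
  T : GQ →* Matrix (Fin 2) (Fin 2) L.R
  cont : MatCont T
  frob : HData.FrobCond (piH (p := p) g) T
  det : ∀ g, (T g).det = cyc p (maximalIdeal L.R) L.hpR g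
  res : ∀ g, (T g).map L.κ = G.ρb g
  span : Submodule.span L.R (Set.range T) = ⊤
  unram : ∀ q : ℕ, q.Prime → ¬ q ∣ L.NN * p → ∀ A : ValuationSubring Qbar, A.LiesOverPrime q →
        ∀ σ ∈ A.inertiaSubgroupIn ℚ, T σ = 1
  red : ∀ g, (T g).map L.bt = ρ₀.T g

theorem NN_p_of {ℓ : ℕ} (hℓ : ℓ.Prime) (h : ¬ ℓ ∣ L.NN) (hp : ℓ ≠ p) : ¬ ℓ ∣ L.NN * p := fun h' => by
  rcases hℓ.dvd_mul.mp h' with h' | h'
  · exact h h'
  · exact hp ((Nat.prime_dvd_prime_iff_eq hℓ hpf.out).mp h')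

variable {L} in
theorem exists_RepN (g : heckeAlgebra L.NN 2 (bad L.Q) →+* L.R)
    (hg : ∀ l : PS (bad L.Q), g (gT L.pcond.dat₁.avoid l) = TN.T L.pcond l) :
    Function.Surjective L.bt ∧ Nonempty (RepN (ρ₀ := ρ₀) g) := by
  obtain ⟨T, h1, h2, h3, h4, h5, h6, h7⟩ := exists_rep_hecke (N := L.NN) (p := p) L.bad_finite
    G.hp2 L.hpR g (L.κ : L.R →+* ResidueField O) (kappa_surjective L.κ)
    (ρb := G.ρb) G.cont (fun ℓ hℓ hℓN hℓp hℓS A hA τ hτ => by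
      have hℓS' : ℓ ∉ G.S := fun h => hℓS (Or.inl h)
      have e1 := G.trace_frob ⟨ℓ, hℓ, hℓS'⟩ hA hτ
      have e2 := G.det_frob ⟨ℓ, hℓ, hℓS'⟩ hA hτ
      refine ⟨?_, e2⟩
      have h1 := hg ⟨ℓ, hℓ, hℓS⟩
      have h2 := L.κ_T ⟨ℓ, hℓ, hℓS⟩
      rw [← h1] at h2
      exact e1.trans h2.symm) G.span
  -- comparison of the traces over `R₀`
  have hMT : MatCont (mapT (L.bt : L.R →+* G.R₀) T) := h1.map _ inferInstance
  have hF1 : HData.FrobCond ((L.bt : L.R →+* G.R₀).comp (piH (p := p) g))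
      (mapT (L.bt : L.R →+* G.R₀) T) := by
    intro ℓ hℓ hℓN hℓS A hA τ hτ
    obtain ⟨e1, e2⟩ := h2 ℓ hℓ hℓN hℓS A hA τ hτ
    refine ⟨?_, ?_⟩
    · rw [RingHom.comp_apply, ← e1, Matrix.trace_fin_two, Matrix.trace_fin_two, map_add]
      rfl
    · change (((L.bt : L.R →+* G.R₀).mapMatrix (T τ))).det = _
      rw [← RingHom.map_det, e2, map_natCast]
  have hF2 : HData.FrobCond ((L.bt : L.R →+* G.R₀).comp (piH (p := p) g)) ρ₀.T := by
    intro ℓ hℓ hℓN hℓS A hA τ hτ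
    have hℓS' : ℓ ∉ G.S := fun h => hℓS (Or.inl h)
    obtain ⟨e1, e2⟩ := ρ₀.frob ⟨ℓ, hℓ, hℓS'⟩ A hA τ hτ
    refine ⟨?_, e2⟩
    rw [e1, RingHom.comp_apply, piH_T _ hℓ hℓN hℓS]
    have h1 := hg ⟨ℓ, hℓ, hℓS⟩
    have h2 := L.bt_T ⟨ℓ, hℓ, hℓS⟩
    rw [← h1] at h2
    exact h2.symm
  have htr : ∀ x, L.bt (T x).trace = (ρ₀.T x).trace := by
    intro x
    have e1 := trace_eq_tR L.bad_finite L.NN_ne G.hp2 (Glob.hpR₀ (G := G)) _ hMT hF1 x
    have e2 := trace_eq_tR L.bad_finite L.NN_ne G.hp2 (Glob.hpR₀ (G := G)) _ ρ₀.cont hF2 x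
    rw [e2, ← e1, Matrix.trace_fin_two, Matrix.trace_fin_two, map_add]
    rfl
  have hsurj : Function.Surjective L.bt := by
    refine bt_surjective_of fun l => ?_
    obtain ⟨A, hA, τ, hτ⟩ := Frob.exists_place_frobenius l.2.1
    exact ⟨_, (htr τ).trans (ρ₀.frob l A hA τ hτ).1⟩
  refine ⟨hsurj, ?_⟩
  obtain ⟨T', U, U', hUU', hU'U, hT', hred⟩ := conj_lift (L.bt : L.R →+* G.R₀) hsurj htr h5 ρ₀.span
  have htr' : ∀ g, (T' g).trace = (T g).trace := fun g => by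
    rw [hT', Matrix.trace_mul_comm, ← mul_assoc, hU'U, one_mul]
  have hdet' : ∀ g, (T' g).det = (T g).det := fun g => by
    rw [hT', Matrix.det_mul, Matrix.det_mul, mul_comm (U.det), mul_assoc, ← Matrix.det_mul, hUU',
      Matrix.det_one, mul_one]
  have hres : ∀ g, (T' g).map L.κ = G.ρb g := by
    intro g
    rw [← ρ₀.res, ← hred, Matrix.map_map]
    ext i j
    exact (L.κ₀_bt _).symm
  refine ⟨⟨T', h1.conj U' U hUU' hT', ?_, fun g => (hdet' g).trans (h3 g), hres, ?_, ?_, hred⟩⟩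
  · intro ℓ hℓ hℓN hℓS A hA τ hτ
    rw [htr', hdet']
    exact h2 ℓ hℓ hℓN hℓS A hA τ hτ
  · rw [eq_top_iff]
    intro X _
    have key : ∀ Y ∈ Submodule.span L.R (Set.range T),
        U * Y * U' ∈ Submodule.span L.R (Set.range T') := by
      intro Y hY
      induction hY using Submodule.span_induction with
      | mem x hx =>
        obtain ⟨g, rfl⟩ := hx
        rw [← hT']
        exact Submodule.subset_span ⟨g, rfl⟩
      | zero => rw [mul_zero, zero_mul]; exact Submodule.zero_mem _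
      | add x y _ _ hx hy => rw [mul_add, add_mul]; exact Submodule.add_mem _ hx hy
      | smul a x _ hx =>
        rw [Matrix.mul_smul, Matrix.smul_mul]
        exact Submodule.smul_mem _ _ hx
    have h1 := key (U' * X * U) (by rw [h5]; trivial)
    have h2 : U * (U' * X * U) * U' = X := by
      calc U * (U' * X * U) * U' = (U * U') * X * (U * U') := by simp only [mul_assoc]
        _ = X := by rw [hUU', one_mul, mul_one]
    rwa [h2] at h1
  · intro q hq hqN A hA σ hσ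
    rw [hT', h7 q hq hqN A hA σ hσ, mul_one, hUU']

end Fermat.Agent.TWInst
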