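import Fermat.Agent.TWInst.Setup

/-!
# The combined Hecke algebra as a complete local `O`-algebra
-/

set_option autoImplicit false
set_option maxHeartbeats 400000

noncomputable section

namespace Fermat.Agent.TWInst

open IsLocalRing Matrix Fermat.Agent.DefRing Fermat.Agent.GalRep Fermat.Agent.TWPatch
  Fermat.Agent.TWLoc Fermat.Agent.TWGal CuspForm Fermat.Agent.AnJac Fermat.Agent.HeckeQ
open Fermat.Agent.TWCoh hiding GQ

local notation "Qbar" => AlgebraicClosure ℚ

attribute [local instance] algDk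

variable {p : ℕ} [hpf : Fact p.Prime] {O : Type} [CommRing O] [CNL O] {G : Glob p O}
  {r n : ℕ} (L : LevD G r n)

/-- the ring -/
abbrev LevD.R : Type := TN L.pcond

example : Algebra O L.R := inferInstance
example : Algebra (DRing O p n r) L.R := inferInstance
example : IsScalarTower O (DRing O p n r) L.R := inferInstance

theorem Glob.nontrivial_M0 (G : Glob p O) [IsDomain O] [CharZero O] : Nontrivial (M0 O G.N G.τ) :=
  TWCoh.nontrivial_M0 residue_surjective G.not_dvd_N G.f (fun l => rfl)

theorem Glob.cnlDk (G : Glob p O) (n r : ℕ) : CNL (DRing O p n r) := cnl_DRing O p G.hpO n r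

theorem LevD.isLocal [Nontrivial (M0 O G.N G.τ)] : IsLocalRing L.R :=
  haveI := G.cnlDk n r
  isLocalRing_TN L.pcond

theorem LevD.fin : Module.Finite O L.R := by
  haveI := G.cnlDk n r
  haveI : Module.Finite (DRing O p n r) L.R := finite_TN L.pcond
  haveI : Module.Finite O (DRing O p n r) := inferInstance
  exact Module.Finite.trans (DRing O p n r) L.R

theorem LevD.cnl [Nontrivial (M0 O G.N G.τ)] : CNL L.R :=
  haveI := L.isLocal
  haveI := L.fin
  CNL.of_finite (O := O)

/-- the residue map -/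
def LevD.κ [Nontrivial (M0 O G.N G.τ)] : L.R →ₐ[O] ResidueField O :=
  haveI := G.cnlDk n r
  { resN L.pcond with
    commutes' := fun a => by
      have h1 := resN_algebraMap L.pcond (algebraMap O (DRing O p n r) a)
      refine h1.trans ?_
      change algebraMap O (ResidueField O) (aug O (DG p n r) (algebraMap O _ a)) = _
      rw [AlgHom.commutes]
      rfl }

theorem LevD.κ_T [Nontrivial (M0 O G.N G.τ)] (l : PS (bad L.Q)) :
    L.κ (TN.T L.pcond l) = G.τ (inclPS (sub_bad L.Q) l) :=
  haveI := G.cnlDk n r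
  resN_T L.pcond l

theorem LevD.κ_Λ [Nontrivial (M0 O G.N G.τ)] (x : DRing O p n r) :
    L.κ (algebraMap _ L.R x) = residue O (aug O (DG p n r) x) :=
  haveI := G.cnlDk n r
  resN_algebraMap L.pcond x

theorem LevD.bad_finite : (bad L.Q).Finite := by
  refine G.hS.union ((Finset.finite_toSet (L.Q.image fun q => q.1)).subset ?_)
  rintro l ⟨q, hq, rfl⟩
  exact Finset.mem_coe.mpr (Finset.mem_image_of_mem _ hq)

theorem LevD.p_not_dvd : ¬ p ∣ L.NN := fun h => by
  rcases hpf.out.dvd_mul.mp h with h1 | h1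
  · rcases hpf.out.dvd_mul.mp h1 with h2 | h2
    · exact G.hpN h2
    · rw [Prime.dvd_finsetProd_iff hpf.out.prime] at h2
      obtain ⟨q, hq, h3⟩ := h2
      have h4 := (Nat.prime_dvd_prime_iff_eq hpf.out q.2.1).1 h3
      exact q.2.2 (by rw [← h4]; exact G.hpS)
  · rw [cdr, Prime.dvd_finsetProd_iff hpf.out.prime] at h1
    obtain ⟨q, hq, h3⟩ := h1
    have h4 := (Nat.prime_dvd_prime_iff_eq hpf.out (L.prime_allP hq)).1 h3
    rcases L.mem_allP.mp hq with ⟨j, hj⟩ | h
    · exact (L.qs j).2.2 (by rw [hj, ← h4]; exact G.hpS)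
    · exact G.hpN (h3.trans (G.hI _ h).2.1)

theorem LevD.hpR [Nontrivial (M0 O G.N G.τ)] : haveI := L.isLocal
    (p : L.R) ∈ maximalIdeal L.R := by
  haveI := L.isLocal
  rw [← ker_kappa L.κ, RingHom.mem_ker, map_natCast]
  exact G.pk

section Hecke

variable {K : Type} [Field K] [CharZero K] [IsAlgClosed K] (φC : O →+* K)
  (hinj : Function.Injective φC)

include hinj in
/-- the map from the Hecke algebra -/
theorem LevD.exists_hecke : ∃ g : heckeAlgebra L.NN 2 (bad L.Q) →+* L.R,
    ∀ l : PS (bad L.Q), g (gT L.pcond.dat₁.avoid l) = TN.T L.pcond l := by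
  haveI := G.cnlDk n r
  letI : Algebra O K := φC.toAlgebra
  exact exists_heckeHom_TN L.pcond (fun χ : DG p n r →* Kˣ => chHom O K (DG p n r) χ)
    (fun x hx => chHom_injective hinj x hx)

end Hecke

end Fermat.Agent.TWInst
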