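import Fermat.Agent.TWInst.CocLem
import Fermat.Agent.TWInst.Tr
import Fermat.Agent.TWInst.Gen
import Fermat.Agent.TWDia.Lgc
import Fermat.Agent.PicFlat.Final

/-!
# The cocycles of level `n` satisfy the Selmer conditions
-/

set_option autoImplicit false
set_option maxHeartbeats 400000

noncomputable section

namespace Fermat.Agent.TWInst

open IsLocalRing Matrix Fermat.Agent.DefRing Fermat.Agent.GalRep Fermat.Agent.TWPatch
  Fermat.Agent.TWLoc Fermat.Agent.TWGal CuspForm Fermat.Agent.AnJac Fermat.Agent.HeckeQ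
  CongruenceSubgroup ModularFormClass
open Fermat.Agent.TWCoh hiding GQ

local notation "Qbar" => AlgebraicClosure ℚ

attribute [local instance] algDk LevD.cnl

variable {p : ℕ} [hpf : Fact p.Prime] {O : Type} [CommRing O] [CNL O] {G : Glob p O}
  {r n : ℕ} (L : LevD G r n)

open Classical in
/-- the set of auxiliary primes -/
def LevD.Qf : Finset ℕ := L.Q.image fun q => q.1

theorem LevD.mem_Qf {q : ℕ} : q ∈ L.Qf ↔ ∃ j, (L.qs j).1 = q := by
  classical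
  rw [LevD.Qf, Finset.mem_image]
  constructor
  · rintro ⟨l, hl, rfl⟩
    obtain ⟨j, rfl⟩ := L.mem_Q.mp hl
    exact ⟨j, rfl⟩
  · rintro ⟨j, rfl⟩
    exact ⟨L.qs j, L.mem_Q.mpr ⟨j, rfl⟩, rfl⟩

theorem LevD.prime_NN' {q : ℕ} (hq : q.Prime) (h : q ∣ L.NN) : q ∣ G.N ∨ q ∈ L.Qf := by
  rcases hq.dvd_mul.mp h with h1 | h1
  · rcases hq.dvd_mul.mp h1 with h2 | h2
    · exact Or.inl h2
    · rw [Prime.dvd_finsetProd_iff hq.prime] at h2
      obtain ⟨l, hl, h3⟩ := h2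
      obtain ⟨j, rfl⟩ := L.mem_Q.mp hl
      exact Or.inr (L.mem_Qf.mpr ⟨j, ((Nat.prime_dvd_prime_iff_eq hq (L.qs j).2.1).1 h3).symm⟩)
  · rw [cdr, Prime.dvd_finsetProd_iff hq.prime] at h1
    obtain ⟨l, hl, h3⟩ := h1
    have h4 := (Nat.prime_dvd_prime_iff_eq hq (L.prime_allP hl)).1 h3
    rcases L.mem_allP.mp hl with ⟨j, hj⟩ | h5
    · exact Or.inr (L.mem_Qf.mpr ⟨j, hj.trans h4.symm⟩)
    · exact Or.inl (by rw [h4]; exact (G.hI l h5).2.1)

theorem LevD.not_four_dvd : ¬ 2 ^ 2 ∣ L.NN := by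
  intro h
  have h2S : 2 ∈ G.S := G.hNS 2 Nat.prime_two G.even
  have h1 : ¬ 2 ∣ (∏ l ∈ L.Q, l.1) * cdr L.Q G.I := by
    intro h3
    rcases Nat.prime_two.dvd_mul.mp h3 with h4 | h4
    · rw [Prime.dvd_finsetProd_iff Nat.prime_two.prime] at h4
      obtain ⟨l, hl, h5⟩ := h4
      exact l.2.2 (by rw [← (Nat.prime_dvd_prime_iff_eq Nat.prime_two l.2.1).1 h5]; exact h2S)
    · rw [cdr, Prime.dvd_finsetProd_iff Nat.prime_two.prime] at h4
      obtain ⟨l, hl, h5⟩ := h4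
      have h6 := (Nat.prime_dvd_prime_iff_eq Nat.prime_two (L.prime_allP hl)).1 h5
      rcases L.mem_allP.mp hl with ⟨j, hj⟩ | h7
      · exact (L.qs j).2.2 (by rw [hj, ← h6]; exact h2S)
      · exact (G.hI l h7).2.2 h6.symm
  have h3 : L.NN = G.N * ((∏ l ∈ L.Q, l.1) * cdr L.Q G.I) := by
    show G.N * _ * _ = _
    rw [mul_assoc]
  rw [h3] at h
  have h4 : Nat.Coprime (2 ^ 2) ((∏ l ∈ L.Q, l.1) * cdr L.Q G.I) :=
    Nat.Coprime.pow_left 2 ((Nat.Prime.coprime_iff_not_dvd Nat.prime_two).mpr h1)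
  have h5 : 2 * 2 ∣ G.N := by
    have := h4.dvd_of_dvd_mul_right h
    rwa [pow_two] at this
  have h6 := G.sqf 2 h5
  exact absurd (Nat.isUnit_iff.mp h6) (by norm_num)

section

variable [Nontrivial (M0 O G.N G.τ)] [CNL G.R₀] {ρ₀ : Rep0 G} {L}
  {gn : heckeAlgebra L.NN 2 (bad L.Q) →+* L.R} (ρn : RepN (ρ₀ := ρ₀) gn)

/-- the trace of inertia at `2` -/
theorem trace_two {A : ValuationSubring Qbar} (hA : A.LiesOverPrime 2) {σ : GQ}
    (hσ : σ ∈ A.inertiaSubgroupIn ℚ) : (ρn.T σ).trace = 2 := by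
  have h2p : 2 ≠ p := G.hp2.symm
  have h2N : 2 ∣ L.NN := (G.even.mul_right _).mul_right _
  have hc : cycP p σ = 1 := cycP_inertia p Nat.prime_two hA h2p hσ
  have hth : (hdata L.NN p (esHyp L.NN p)).th σ = castHom _ ℤ_[p]
      ((2 : (hdata L.NN p (esHyp L.NN p)).TT (bad L.Q)) : Matrix _ _ ℤ) :=
    SSMod.th_of_unip hc (SSMod.rho_inertia_unip SSMod.jl23 Nat.prime_two h2N L.not_four_dvd h2p
      hA hσ)
  have htr := SSMod.trace_of_th L.bad_finite L.NN_ne L.hpR ρn.cont ρn.frob hth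
  rwa [map_ofNat] at htr

/-- the image of decomposition groups at the primes of `I` is scalar -/
theorem scalar_decomp (i : G.I) {σ : GQ} (hσ : σ ∈ (G.LD.A i).decompositionSubgroup ℚ) :
    ∃ a : ResidueField O, G.ρb σ = a • (1 : Matrix (Fin 2) (Fin 2) (ResidueField O)) := by
  obtain ⟨K₀, hK₀, hK⟩ := G.cont
  obtain ⟨k, τ, hτ, hk⟩ := TWGal.exists_frob_mul_inertia (G.LD.hq i) (G.LD.hA i) (G.LD.hφ i) hσ K₀
  have h1 : G.ρb ((G.LD.φ i ^ k * τ)⁻¹ * σ) = 1 := hK _ fun x hx => by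
    rw [AlgEquiv.mul_apply, ← hk x hx]
    exact inv_smul_smul (G.LD.φ i ^ k * τ) x
  have h2 : σ = (G.LD.φ i ^ k * τ) * ((G.LD.φ i ^ k * τ)⁻¹ * σ) := by group
  refine ⟨residue O (G.ε i) ^ k, ?_⟩
  rw [h2, map_mul, h1, mul_one, map_mul, map_pow, G.res.1 i, G.res.2 i τ hτ, mul_one, smul_pow,
    one_pow]

open scoped Pointwise

/-- **the Selmer conditions** -/
theorem selCoc_of_der (hIall : ∀ q : ℕ, q.Prime → q ∣ G.N → q ≠ 2 → q ∈ G.I)
    {ℓ : L.R → ResidueField O} (h : ℓ ∈ Der L.κ (jset G.LD G.ε ρn.T)) :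
    SelCoc p G.N L.Qf G.ρb (coc ρn.T G.ρb ℓ) where
  coc := isCock_coc ρn.res h
  tr σ := by
    refine trace_coc' ρn.res h ?_
    rw [ρn.det]
    obtain ⟨m, hm⟩ := exists_nat_approx p (maximalIdeal L.R) L.hpR (cycP p σ) 2
    exact der_of_sub_nat h hm
  lev := coc_continuous ρn.res h ρn.cont
  unr q hq hqN hqQ A hA σ hσ := by
    refine coc_of_one ρn.res h (ρn.unram q hq (fun h1 => ?_) A hA σ hσ)
    rcases hq.dvd_mul.mp h1 with h2 | h2
    · rcases L.prime_NN' hq h2 with h3 | h3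
      · exact hqN (h3.mul_right p)
      · exact hqQ h3
    · exact hqN (h2.mul_left G.N)
  odd q hq hqN hq2 A hA σ hσ := by
    have hqI := hIall q hq hqN hq2
    have hAi : (G.LD.A ⟨q, hqI⟩).LiesOverPrime q := by
      have := G.LD.hA ⟨q, hqI⟩
      rwa [G.hLD] at this
    obtain ⟨g, hg⟩ := Frob.exists_eq_smul_Qbar A (G.LD.A ⟨q, hqI⟩) hq hA hAi
    have hd : g * σ * g⁻¹ ∈ (G.LD.A ⟨q, hqI⟩).decompositionSubgroup ℚ := by
      rw [mem_decomp_iff] at hσ ⊢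
      have h1 : g * σ * g⁻¹ * g = g * σ := by group
      rw [hg, smul_smul, h1, mul_smul, hσ]
    have h0 : coc ρn.T G.ρb ℓ (g * σ * g⁻¹) = 0 := by
      refine coc_decomp ρn.res h ρn.cont hq hAi hpf.out ?_ L.hpR ?_ ?_ (G.LD.hσ ⟨q, hqI⟩) ?_
        (φ := G.LD.φ ⟨q, hqI⟩) ?_ ?_ hd
      · have := G.LD.hpq ⟨q, hqI⟩
        rwa [G.hLD] at this
      · exact G.res.2 ⟨q, hqI⟩
      · have := G.LD.hφ ⟨q, hqI⟩
        rwa [G.hLD] at this
      · have := G.LD.hσ' ⟨q, hqI⟩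
        rwa [G.hLD] at this
      · intro a b
        refine ⟨G.ε ⟨q, hqI⟩ * (1 : Matrix (Fin 2) (Fin 2) O) a b, Or.inl ⟨⟨q, hqI⟩, a, b, ?_⟩⟩
        rw [Matrix.sub_apply, Matrix.smul_apply, smul_eq_mul, map_mul, Matrix.one_apply,
          Matrix.one_apply]
        split_ifs
        · rw [map_one]
        · rw [map_zero]
      · intro a b
        refine ⟨(1 : Matrix (Fin 2) (Fin 2) O) a b, Or.inr ⟨⟨q, hqI⟩, a, b, ?_⟩⟩
        rw [Matrix.sub_apply, Matrix.one_apply, Matrix.one_apply]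
        split_ifs
        · rw [map_one]
        · rw [map_zero]
    obtain ⟨a, ha⟩ := scalar_decomp (G := G) ⟨q, hqI⟩ hd
    have h1 := coc_conj_zero (isCock_coc ρn.res h) (g := g⁻¹) h0 ha
    have h2 : g⁻¹ * (g * σ * g⁻¹) * g⁻¹⁻¹ = σ := by group
    rwa [h2] at h1
  two A hA σ hσ := by
    rw [trace_coc_mul ρn.res h, trace_two ρn hA hσ]
    have := Der.natCast h 2
    rwa [Nat.cast_ofNat] at this
  flat := by
    refine flat_coc ρn.res h ?_
    haveI : Finite (Dk O) := inferInstanceAs (Finite (ResidueField O × ResidueField O))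
    haveI : IsLocalRing (Dk O) := inferInstance
    refine FlatHopf.isFlatMod_of_S19 (PicFlat.s19Hyp L.NN hpf.out L.p_not_dvd) L.bad_finite
      G.hp2 L.hpR (piH gn) ρn.cont ρn.frob ρn.span _ ⟨1, ?_⟩
    rw [pow_one]
    have h1 : (p : Dk O) = dualHom h (p : L.R) := (map_natCast _ _).symm
    rw [h1]
    apply TrivSqZeroExt.ext (R := ResidueField O) (M := ResidueField O)
    · rw [dualHom_fst, map_natCast]
      exact G.pk
    · rw [dualHom_snd, Der.natCast h]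
      rfl

end

end Fermat.Agent.TWInst
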